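import Mathlib

/-!
# S56 / Loc / Lin : `2 × 2` linear algebra (Mathlib only)        (block owner helper25)

## key S56/L-LIN
(a) `nilp_mul_eq_zero`: write `A = !![a, b; c, -a]`, `a² + b c = 0`, the same for `B`, `tr (A B) = 2 a a' + b c' + c b' = 0`.  Every entry `e` of `A B` satisfies `e ^ 2 = 0` (`linear_combination`), or argue by cases `b = 0` / `b ≠ 0`.
(b) `exists_conj_zero`: `u = 1 + N`, `u⁻¹ = 1 - N`.  `C + (u Y u⁻¹ - Y) = 0 ⟺ [N, Y] = - C u` (multiply by `u` on the right).  `N = !![a, b; c, -a]`.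
Case `b ≠ 0` / case `b = 0` (then `a = 0`, `c ≠ 0`): solve explicitly.
(c) `upper_of_eigen`.
-/

set_option autoImplicit false

namespace Fermat.Agent.S56.Loc

open Matrix

variable {k : Type*} [Field k]

/-- [S56/L-LIN] (a) -/
theorem nilp_mul_eq_zero (A B : Matrix (Fin 2) (Fin 2) k) (hA : A.trace = 0) (hA' : A.det = 0)
    (hB : B.trace = 0) (hB' : B.det = 0) (hAB : (A * B).trace = 0) : A * B = 0 := by
  rw [Matrix.trace_fin_two] at hA hB hAB
  rw [Matrix.det_fin_two] at hA' hB'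
  simp only [Matrix.mul_apply, Fin.sum_univ_two] at hAB
  have a1 : A 1 1 = - A 0 0 := by linear_combination hA
  have b1 : B 1 1 = - B 0 0 := by linear_combination hB
  rw [a1] at hA' hAB
  rw [b1] at hB' hAB
  ext i j
  rw [Matrix.mul_apply, Fin.sum_univ_two, Matrix.zero_apply]
  apply pow_eq_zero_iff (two_ne_zero) |>.1
  fin_cases i <;> fin_cases j <;> simp only [Fin.zero_eta, Fin.mk_one, Fin.isValue, a1, b1]
  · linear_combination (A 0 1 * B 1 0) * hAB - (B 0 0)^2 * hA' + (A 0 1 * A 1 0) * hB'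
  · linear_combination (- A 0 1 * B 0 1) * hAB - (B 0 1)^2 * hA' - (A 0 1)^2 * hB'
  · linear_combination (- A 1 0 * B 1 0) * hAB - (B 1 0)^2 * hA' - (A 1 0)^2 * hB'
  · linear_combination (A 1 0 * B 0 1) * hAB - (B 0 0)^2 * hA' + (A 0 1 * A 1 0) * hB'

theorem linAux_exists (y1 y2 y3 : k) : ∃ Y : Matrix (Fin 2) (Fin 2) k,
    Y 0 0 = y1 ∧ Y 0 1 = y2 ∧ Y 1 0 = y3 ∧ Y 1 1 = - y1 :=
  ⟨!![y1, y2; y3, -y1], rfl, rfl, rfl, rfl⟩

theorem linAux_ext {A B : Matrix (Fin 2) (Fin 2) k} (h00 : A 0 0 = B 0 0) (h01 : A 0 1 = B 0 1)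
    (h10 : A 1 0 = B 1 0) (h11 : A 1 1 = B 1 1) : A = B := by
  ext i j
  fin_cases i <;> fin_cases j <;> assumption

theorem exists_conj_zero (h2 : (2 : k) ≠ 0) (N C : Matrix (Fin 2) (Fin 2) k) (hN0 : N ≠ 0)
    (hN : N.trace = 0) (hN' : N.det = 0) (hC : C.trace = 0) (hCN : (C * (1 + N)).trace = 0) :
    ∃ Y : Matrix (Fin 2) (Fin 2) k, Y.trace = 0 ∧ C + ((1 + N) * Y * (1 - N) - Y) = 0 := by
  rw [Matrix.trace_fin_two] at hN hC hCN
  rw [Matrix.det_fin_two] at hN'
  simp only [Matrix.mul_apply, Fin.sum_univ_two, Matrix.add_apply, Matrix.one_apply_eq,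
    Matrix.one_apply_ne (show (0 : Fin 2) ≠ 1 by decide),
    Matrix.one_apply_ne (show (1 : Fin 2) ≠ 0 by decide)] at hCN
  have a1 : N 1 1 = - N 0 0 := by linear_combination hN
  have c1 : C 1 1 = - C 0 0 := by linear_combination hC
  rw [a1] at hN' hCN
  rw [c1] at hCN
  have hNN : N * N = 0 := by
    ext i j
    rw [Matrix.mul_apply, Fin.sum_univ_two, Matrix.zero_apply]
    fin_cases i <;> fin_cases j <;> simp only [Fin.zero_eta, Fin.mk_one, Fin.isValue, a1]
    · linear_combination - hN'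
    · ring
    · ring
    · linear_combination - hN'
  -- reduction
  suffices h : ∃ Y : Matrix (Fin 2) (Fin 2) k, Y.trace = 0 ∧ N * Y - Y * N = - (C * (1 + N)) by
    obtain ⟨Y, hY, hE⟩ := h
    refine ⟨Y, hY, ?_⟩
    have e : C + ((1 + N) * Y * (1 - N) - Y) = (C * (1 + N) + (N * Y - Y * N)) * (1 - N) := by
      simp only [mul_add, add_mul, mul_sub, sub_mul, mul_one, one_mul, Matrix.mul_assoc, hNN,
        mul_zero]
      abel
    rw [e, hE, add_neg_cancel, zero_mul]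
  by_cases hb : N 0 1 = 0
  · have ha : N 0 0 = 0 := by
      have : N 0 0 ^ 2 = 0 := by rw [hb] at hN'; linear_combination - hN'
      exact pow_eq_zero_iff (two_ne_zero) |>.1 this
    have hc : N 1 0 ≠ 0 := by
      intro hc
      apply hN0
      ext i j
      fin_cases i <;> fin_cases j <;> simp [ha, hb, hc, a1]
    have hy : C 0 1 = 0 := by
      rw [ha, hb] at hCN
      have : C 0 1 * N 1 0 = 0 := by linear_combination hCN
      exact (mul_eq_zero.1 this).resolve_right hc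
    obtain ⟨Y, h00, h01, h10, h11⟩ := linAux_exists
      ((- C 1 0 + C 0 0 * N 1 0) / (2 * N 1 0)) (C 0 0 / N 1 0) 0
    refine ⟨Y, by rw [Matrix.trace_fin_two, h00, h11, add_neg_cancel], ?_⟩
    refine linAux_ext ?_ ?_ ?_ ?_ <;>
      simp only [Matrix.sub_apply, Matrix.neg_apply, Matrix.mul_apply, Fin.sum_univ_two,
        Matrix.add_apply, a1, c1, ha, hb, hy, h00, h01, h10, h11,
        Matrix.one_apply_eq, Matrix.one_apply_ne (show (0 : Fin 2) ≠ 1 by decide),
        Matrix.one_apply_ne (show (1 : Fin 2) ≠ 0 by decide)] <;> field_simp <;> ring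
  · obtain ⟨Y, h00, h01, h10, h11⟩ := linAux_exists
      ((C 0 1 + C 0 0 * N 0 1 - C 0 1 * N 0 0) / (2 * N 0 1)) 0
      ((- C 0 0 - C 0 0 * N 0 0 - C 0 1 * N 1 0) / N 0 1)
    refine ⟨Y, by rw [Matrix.trace_fin_two, h00, h11, add_neg_cancel], ?_⟩
    refine linAux_ext ?_ ?_ ?_ ?_ <;>
      simp only [Matrix.sub_apply, Matrix.neg_apply, Matrix.mul_apply, Fin.sum_univ_two,
        Matrix.add_apply, a1, c1, h00, h01, h10, h11,
        Matrix.one_apply_eq, Matrix.one_apply_ne (show (0 : Fin 2) ≠ 1 by decide),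
        Matrix.one_apply_ne (show (1 : Fin 2) ≠ 0 by decide)] <;> field_simp
    · ring
    · ring
    · linear_combination 2 * (1 + N 0 0) * hCN
    · linear_combination 2 * N 0 1 * hCN
end Fermat.Agent.S56.Loc
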