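import Fermat.Agent.S56.Loc.Kum
import Fermat.Agent.S56.Loc.Lin

/-!
# S56 / Loc / Unip : unipotent lifts of a ramified unipotent `r0|I_q` are trivial on inertia        (block owner helper25)

## key S56/L-UNIP : `unip_vanish`
`N σ = r0 σ - 1`.  For `σ, σ' ∈ Iq q`: `tr N σ = 0`, `det N σ = 0` (`det (1 + N) = 1 + tr N + det N`), `tr (N σ * N σ') = 0` (from `tr r0 (σ σ') = 2`), so `N σ * N σ' = 0` (`nilp_mul_eq_zero`);
`(r0 σ)⁻¹ = 1 - N σ`.  Hence `N` is an `ICh` (values in `M2 k`, `p`-torsion).  `τ` from `exists_tame`; `N τ ≠ 0` (otherwise `N = 0` on `Iq q`, contradiction with `hram`).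
`Y` from `exists_conj_zero` (`N = N τ`, `C = c τ`).  `c' σ = c σ + (r0 σ * Y * (r0 σ)⁻¹ - Y)` is again a cocycle, trivial on a level, `c' τ = 0`.  Then successively (each is an `ICh` killing `τ`):
1. fixed `α, β ∈ Iq q`: `Ψ σ = N α * c' σ * N β` (additive: `N α * r0 σ = N α`, `(r0 σ)⁻¹ * N β = N β`), so `N α * c' σ * N β = 0`;
2. fixed `α`: `Ψ σ = N α * c' σ` (additive: `N α * r0 σ * m * (1 - N σ) = N α * m - N α * m * N σ`, `m = c' σ'`, use 1.), and `Ψ σ = c' σ * N α`;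
3. `Ψ = c'` (additive: `(1 + N σ) * m * (1 - N σ) = m` by 2.).
-/

set_option autoImplicit false

noncomputable section

namespace Fermat.Agent.S56.Loc

open Fermat.Agent.S55 Matrix

/-- the abstract form of `unip_vanish` -/
theorem unipAux (p : ℕ) [Fact p.Prime] (q : Nat.Primes) (hq : (q : ℕ) ≠ p) {k : Type} [Field k]
    [CharP k p] (h2 : (2 : k) ≠ 0) (R Ri c : GQ → Matrix (Fin 2) (Fin 2) k)
    (hRmul : ∀ σ τ, R (σ * τ) = R σ * R τ) (hRimul : ∀ σ τ, Ri (σ * τ) = Ri τ * Ri σ)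
    (_hRRi : ∀ σ, R σ * Ri σ = 1) (hRiR : ∀ σ, Ri σ * R σ = 1)
    (hsm : ∃ U ∈ lvlQ.sets, ∀ σ ∈ U, R σ = 1)
    (hc : ∀ σ τ, c (σ * τ) = R σ * c τ * Ri σ + c σ)
    (hcsm : ∃ U ∈ lvlQ.sets, ∀ σ ∈ U, c σ = 0) (htr : ∀ σ, (c σ).trace = 0)
    (hI : ∀ σ ∈ Iq q, (R σ).trace = 2 ∧ (R σ).det = 1 ∧ (c σ * R σ).trace = 0)
    (hram : ∃ σ ∈ Iq q, R σ ≠ 1) :
    ∃ Y : Matrix (Fin 2) (Fin 2) k, Y.trace = 0 ∧ ∀ σ ∈ Iq q, c σ + (R σ * Y * Ri σ - Y) = 0 := by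
  have htors : ∀ x : Matrix (Fin 2) (Fin 2) k, p • x = 0 := by
    intro x
    ext i j
    rw [Matrix.smul_apply, nsmul_eq_mul, CharP.cast_eq_zero, zero_mul, Matrix.zero_apply]
  obtain ⟨N, hN⟩ : ∃ N : GQ → Matrix (Fin 2) (Fin 2) k, ∀ σ, N σ = R σ - 1 := ⟨_, fun _ => rfl⟩
  have hRN : ∀ σ, R σ = 1 + N σ := fun σ => by rw [hN]; abel
  have f1 : ∀ σ ∈ Iq q, (N σ).trace = 0 := by
    intro σ hσ
    rw [hN, Matrix.trace_sub, (hI σ hσ).1, Matrix.trace_one, Fintype.card_fin]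
    norm_num
  have f2 : ∀ σ ∈ Iq q, (N σ).det = 0 := by
    intro σ hσ
    have h1 := (hI σ hσ).1
    have h3 := (hI σ hσ).2.1
    rw [Matrix.trace_fin_two] at h1
    rw [Matrix.det_fin_two] at h3
    rw [hN, Matrix.det_fin_two]
    simp only [Matrix.sub_apply, Matrix.one_apply_eq,
      Matrix.one_apply_ne (show (0 : Fin 2) ≠ 1 by decide),
      Matrix.one_apply_ne (show (1 : Fin 2) ≠ 0 by decide)]
    linear_combination h3 - h1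
  have f4 : ∀ σ ∈ Iq q, ∀ τ ∈ Iq q, N σ * N τ = 0 := by
    intro σ hσ τ hτ
    refine nilp_mul_eq_zero _ _ (f1 σ hσ) (f2 σ hσ) (f1 τ hτ) (f2 τ hτ) ?_
    have e : N σ * N τ = R (σ * τ) - R σ - R τ + 1 := by
      rw [hRmul, hN, hN]
      noncomm_ring
    rw [e, Matrix.trace_add, Matrix.trace_sub, Matrix.trace_sub,
      (hI _ ((Iq q).mul_mem hσ hτ)).1, (hI σ hσ).1, (hI τ hτ).1, Matrix.trace_one, Fintype.card_fin]
    norm_num
  have f5 : ∀ σ ∈ Iq q, Ri σ = 1 - N σ := by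
    intro σ hσ
    have h1 : R σ * (1 - N σ) = 1 := by
      rw [hRN, add_mul, mul_sub, mul_sub, f4 σ hσ σ hσ]
      simp
    calc Ri σ = Ri σ * (R σ * (1 - N σ)) := by rw [h1, mul_one]
      _ = 1 - N σ := by rw [← mul_assoc, hRiR, one_mul]
  obtain ⟨τ, hτ, hgen⟩ := exists_tame p q hq
  have hNich : ICh q N := by
    refine ⟨fun σ hσ σ' hσ' => ?_, ?_⟩
    · have e : N (σ * σ') = N σ + N σ' + N σ * N σ' := by
        rw [hN (σ * σ'), hRmul, hRN σ, hRN σ']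
        noncomm_ring
      rw [e, f4 σ hσ σ' hσ', add_zero]
    · obtain ⟨U, hU, h⟩ := hsm
      exact ⟨U, hU, fun σ _ hσ => by rw [hN, h σ hσ, sub_self]⟩
  have hNτ : N τ ≠ 0 := by
    intro h0
    obtain ⟨σ, hσ, hne⟩ := hram
    apply hne
    rw [hRN, hgen htors N hNich h0 σ hσ, add_zero]
  obtain ⟨Y, hY, hYτ⟩ := exists_conj_zero h2 (N τ) (c τ) hNτ (f1 τ hτ) (f2 τ hτ) (htr τ)
    (by rw [← hRN]; exact (hI τ hτ).2.2)
  refine ⟨Y, hY, ?_⟩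
  obtain ⟨c', hc'⟩ : ∃ c' : GQ → Matrix (Fin 2) (Fin 2) k, ∀ σ, c' σ = c σ + (R σ * Y * Ri σ - Y) :=
    ⟨_, fun _ => rfl⟩
  have hc'τ : c' τ = 0 := by rw [hc', hRN, f5 τ hτ]; exact hYτ
  have hcoc : ∀ σ σ', c' (σ * σ') = R σ * c' σ' * Ri σ + c' σ := by
    intro σ σ'
    rw [hc', hc', hc', hc, hRmul, hRimul]
    noncomm_ring
  obtain ⟨U, hU, hc'U⟩ : ∃ U ∈ lvlQ.sets, ∀ σ ∈ U, c' σ = 0 := by
    obtain ⟨U1, hU1, h1⟩ := hsm
    obtain ⟨U2, hU2, h2'⟩ := hcsm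
    obtain ⟨W, hW, hWU⟩ := lvlQ.inter U1 hU1 U2 hU2
    refine ⟨W, hW, fun σ hσ => ?_⟩
    have h3 : Ri σ = 1 := by
      have := hRiR σ
      rwa [h1 σ (hWU hσ).1, mul_one] at this
    rw [hc', h2' σ (hWU hσ).2, h1 σ (hWU hσ).1, h3]
    simp
  -- step 1
  have s1 : ∀ α ∈ Iq q, ∀ β ∈ Iq q, ∀ σ ∈ Iq q, N α * c' σ * N β = 0 := by
    intro α hα β hβ
    refine hgen htors (fun σ => N α * c' σ * N β) ⟨fun σ hσ σ' hσ' => ?_,
      ⟨U, hU, fun σ _ hσ => by simp only [hc'U σ hσ, mul_zero, zero_mul]⟩⟩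
      (by simp only [hc'τ, mul_zero, zero_mul])
    show N α * c' (σ * σ') * N β = N α * c' σ * N β + N α * c' σ' * N β
    have e1 : N α * R σ = N α := by rw [hRN, mul_add, mul_one, f4 α hα σ hσ, add_zero]
    have e2 : Ri σ * N β = N β := by rw [f5 σ hσ, sub_mul, one_mul, f4 σ hσ β hβ, sub_zero]
    calc N α * c' (σ * σ') * N β
        = (N α * R σ) * c' σ' * (Ri σ * N β) + N α * c' σ * N β := by
          rw [hcoc]; noncomm_ring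
      _ = _ := by rw [e1, e2, add_comm]
  have s2a : ∀ α ∈ Iq q, ∀ σ ∈ Iq q, N α * c' σ = 0 := by
    intro α hα
    refine hgen htors (fun σ => N α * c' σ) ⟨fun σ hσ σ' hσ' => ?_,
      ⟨U, hU, fun σ _ hσ => by simp only [hc'U σ hσ, mul_zero]⟩⟩
      (by simp only [hc'τ, mul_zero])
    show N α * c' (σ * σ') = N α * c' σ + N α * c' σ'
    have e1 : N α * R σ = N α := by rw [hRN, mul_add, mul_one, f4 α hα σ hσ, add_zero]
    calc N α * c' (σ * σ')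
        = (N α * R σ) * c' σ' * Ri σ + N α * c' σ := by
          rw [hcoc]; noncomm_ring
      _ = N α * c' σ' - N α * c' σ' * N σ + N α * c' σ := by
          rw [e1, f5 σ hσ, mul_sub, mul_one]
      _ = _ := by rw [s1 α hα σ hσ σ' hσ', sub_zero, add_comm]
  have s2b : ∀ α ∈ Iq q, ∀ σ ∈ Iq q, c' σ * N α = 0 := by
    intro α hα
    refine hgen htors (fun σ => c' σ * N α) ⟨fun σ hσ σ' hσ' => ?_,
      ⟨U, hU, fun σ _ hσ => by simp only [hc'U σ hσ, zero_mul]⟩⟩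
      (by simp only [hc'τ, zero_mul])
    show c' (σ * σ') * N α = c' σ * N α + c' σ' * N α
    have e2 : Ri σ * N α = N α := by rw [f5 σ hσ, sub_mul, one_mul, f4 σ hσ α hα, sub_zero]
    calc c' (σ * σ') * N α
        = R σ * c' σ' * (Ri σ * N α) + c' σ * N α := by
          rw [hcoc]; noncomm_ring
      _ = c' σ' * N α + N σ * c' σ' * N α + c' σ * N α := by
          rw [e2, hRN, add_mul, add_mul, one_mul]
      _ = _ := by rw [s1 σ hσ α hα σ' hσ', add_zero, add_comm]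
  have s3 : ∀ σ ∈ Iq q, c' σ = 0 := by
    refine hgen htors c' ⟨fun σ hσ σ' hσ' => ?_, ⟨U, hU, fun σ _ hσ => hc'U σ hσ⟩⟩ hc'τ
    rw [hcoc, hRN, f5 σ hσ, add_mul, one_mul, s2a σ hσ σ' hσ', add_zero, mul_sub, mul_one,
      s2b σ hσ σ' hσ', sub_zero, add_comm]
  intro σ hσ
  rw [← hc']
  exact s3 σ hσ

/-- [S56/L-UNIP] -/
theorem unip_vanish (p : ℕ) [Fact p.Prime] (q : Nat.Primes) (hq : (q : ℕ) ≠ p) {k : Type} [Field k]
    [CharP k p] (h2 : (2 : k) ≠ 0) (r0 : GQ →* GL (Fin 2) k)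
    (hsm : ∃ U ∈ lvlQ.sets, ∀ σ ∈ U, r0 σ = 1) (c : GQ → Matrix (Fin 2) (Fin 2) k)
    (hc : ∀ σ τ, c (σ * τ) = (r0 σ : Matrix (Fin 2) (Fin 2) k) * c τ *
      (((r0 σ)⁻¹ : GL (Fin 2) k) : Matrix (Fin 2) (Fin 2) k) + c σ)
    (hcsm : ∃ U ∈ lvlQ.sets, ∀ σ ∈ U, c σ = 0) (htr : ∀ σ, (c σ).trace = 0)
    (hI : ∀ σ ∈ Iq q, (r0 σ : Matrix (Fin 2) (Fin 2) k).trace = 2 ∧
      (r0 σ : Matrix (Fin 2) (Fin 2) k).det = 1 ∧
      (c σ * (r0 σ : Matrix (Fin 2) (Fin 2) k)).trace = 0)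
    (hram : ∃ σ ∈ Iq q, r0 σ ≠ 1) :
    ∃ Y : Matrix (Fin 2) (Fin 2) k, Y.trace = 0 ∧ ∀ σ ∈ Iq q,
      c σ + ((r0 σ : Matrix (Fin 2) (Fin 2) k) * Y *
        (((r0 σ)⁻¹ : GL (Fin 2) k) : Matrix (Fin 2) (Fin 2) k) - Y) = 0 := by
  refine unipAux p q hq h2 (fun σ => (r0 σ : Matrix (Fin 2) (Fin 2) k))
    (fun σ => (((r0 σ)⁻¹ : GL (Fin 2) k) : Matrix (Fin 2) (Fin 2) k)) c
    (fun σ τ => by simp only [map_mul, Units.val_mul])
    (fun σ τ => by simp only [map_mul, _root_.mul_inv_rev, Units.val_mul])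
    (fun σ => by simp only [Units.mul_inv]) (fun σ => by simp only [Units.inv_mul]) ?_ hc hcsm htr hI ?_
  · obtain ⟨U, hU, h⟩ := hsm
    exact ⟨U, hU, fun σ hσ => by simp only [h σ hσ, Units.val_one]⟩
  · obtain ⟨σ, hσ, h⟩ := hram
    exact ⟨σ, hσ, fun h1 => h (Units.ext h1)⟩

end Fermat.Agent.S56.Loc
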