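import Fermat.Agent.S55.D.Local

/-!
# S56 / Loc / Ur : `# H¹_ur(D_q, X) ≤ # H⁰(D_q, X)`        (block owner helper25)

## key S56/L-UR
`φ` from `D.exists_proCyc q` (`ProCyc (lvlD q) (IqD q) φ`: `normal`, `gen`).  `XI = {x | ∀ i ∈ IqD q, ρ i x = x}` (stable by `ρ φ`: `I` normal), `f = ρ φ - 1 : XI →+ XI`.
For `x ∈ H1ur` CHOOSE a cocycle `c_x` of class `x` vanishing on `IqD q`.  `c_x φ ∈ XI` (`c (i φ) = ρ i (c φ)`, `i φ = φ i'`, `c (φ i') = c φ`).  The map `x ↦ [c_x φ] ∈ XI ⧸ range f` is INJECTIVE: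
if `c_x φ - c_y φ = ρ φ z - z`, `z ∈ XI`, then `e = c_x - c_y - d0 z` is a cocycle vanishing on `IqD q` and at `φ`, so at all `φ ^ k`; `U = rightStab e` is open (`LC1`) and contains `IqD q`,
so every `g = φ ^ k u` (`ProCyc.gen`) has `e g = e (φ ^ k) = 0`.  `# (XI ⧸ range f) = # ker f` (finite group), and `ker f = H0 ρ` (`stabOf ρ x` is open by smoothness, contains `IqD q` and `φ`).
-/

set_option autoImplicit false

noncomputable section

namespace Fermat.Agent.S56.Loc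

open Fermat.Agent.S55

section Abs

variable {D : Type*} [Group D] {𝓛 : Lvl D} {I : Subgroup D} {φ : D}
  {X : Type*} [AddCommGroup X] {ρ : D →* AddMonoid.End X}

/-- invariants of `I` -/
def urXI (I : Subgroup D) (ρ : D →* AddMonoid.End X) : AddSubgroup X where
  carrier := {x | ∀ i ∈ I, ρ i x = x}
  add_mem' := fun ha hb i hi => by rw [map_add, ha i hi, hb i hi]
  zero_mem' := fun i _ => map_zero _
  neg_mem' := fun ha i hi => by rw [map_neg, ha i hi]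

/-- values of an unramified cocycle are `I`-invariant -/
theorem ur_val_mem (hn : I.Normal) {c : D → X} (hc : ∀ g h, c (g * h) = ρ g (c h) + c g)
    (hI : ∀ i ∈ I, c i = 0) (g : D) : c g ∈ urXI I ρ := by
  intro i hi
  have h1 : i * g = g * (g⁻¹ * i * g⁻¹⁻¹) := by group
  have h2 := hc i g
  rw [h1, hc, hI _ (hn.conj_mem i hi g⁻¹), map_zero, zero_add, hI i hi, add_zero] at h2
  exact h2.symm

/-- an unramified cocycle vanishing at `φ` is zero -/
theorem ur_eq_zero (h : ProCyc 𝓛 I φ) {e : D → X} (hlc : LC1 𝓛 e)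
    (he : ∀ g h, e (g * h) = ρ g (e h) + e g) (hI : ∀ i ∈ I, e i = 0) (hφ : e φ = 0) : e = 0 := by
  have hpow : ∀ k : ℕ, e (φ ^ k) = 0 := by
    intro k
    induction k with
    | zero =>
      have := he 1 1
      rw [mul_one, map_one] at this
      simpa using this
    | succ k ih => rw [pow_succ, he, hφ, map_zero, ih, add_zero]
  have hopen : 𝓛.IsOpen (ProCyc.rightStab e) := by
    obtain ⟨U, hU, hUe⟩ := hlc
    exact ⟨U, hU, fun u hu g => hUe g u hu⟩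
  have hIle : I ≤ ProCyc.rightStab e := fun i hi g => by rw [he, hI i hi, map_zero, zero_add]
  funext g
  obtain ⟨k, hk⟩ := h.gen _ hopen hIle g
  have h1 := hk (φ ^ k)
  rw [mul_inv_cancel_left] at h1
  rw [h1, hpow]
  rfl

/-- an element fixed by `I` and `φ` is invariant -/
theorem ur_mem_H0 (h : ProCyc 𝓛 I φ) (hsm : Smooth 𝓛 ρ) {z : X} (hz : z ∈ urXI I ρ)
    (hφ : ρ φ z = z) : z ∈ H0 ρ := by
  have hopen : 𝓛.IsOpen (ProCyc.stabOf ρ z) := by
    obtain ⟨U, hU, hUz⟩ := hsm z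
    exact ⟨U, hU, fun u hu => hUz u hu⟩
  have hpow : ∀ k : ℕ, ρ (φ ^ k) z = z := fun k => (ProCyc.stabOf ρ z).pow_mem hφ k
  intro g
  obtain ⟨k, hk⟩ := h.gen _ hopen hz g
  have h1 : g = φ ^ k * ((φ ^ k)⁻¹ * g) := by group
  have hk' : ρ ((φ ^ k)⁻¹ * g) z = z := hk
  rw [h1, ProCyc.rho_mul, hk', hpow]

/-- the abstract count -/
theorem ur_card [Finite X] (h : ProCyc 𝓛 I φ) (hsm : Smooth 𝓛 ρ) (Hur : AddSubgroup (H1 𝓛 ρ))
    (hur : ∀ x ∈ Hur, ∃ c : ↥(Z1 𝓛 ρ), H1.mk _ _ c = x ∧ ∀ i ∈ I, (c : D → X) i = 0) :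
    Finite ↥Hur ∧ Nat.card ↥Hur ≤ Nat.card ↥(H0 ρ) := by
  classical
  -- `f = ρ φ - 1` on `XI`
  let f : ↥(urXI I ρ) →+ X := (ρ φ - 1 : AddMonoid.End X).comp (urXI I ρ).subtype
  have hf : ∀ z : ↥(urXI I ρ), f z = ρ φ z - z := fun z => rfl
  choose c hc hcI using fun x : ↥Hur => hur x.1 x.2
  have hval : ∀ x : ↥Hur, (c x : D → X) φ ∈ urXI I ρ := fun x =>
    ur_val_mem h.normal (c x).2.2 (hcI x) φ
  have hfm : ∀ z : ↥(urXI I ρ), f z ∈ urXI I ρ := by
    intro z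
    rw [hf]
    refine (urXI I ρ).sub_mem ?_ z.2
    intro i hi
    exact ProCyc.fixed_rho h.normal z.2 φ i hi
  -- the key injectivity
  have key : ∀ x y : ↥Hur, (c x : D → X) φ - (c y : D → X) φ ∈ f.range → x = y := by
    rintro x y ⟨z, hz⟩
    have he : ((c x : D → X) - (c y : D → X) - d0 ρ (z : X)) = 0 := by
      have hmem : ((c x : D → X) - (c y : D → X) - d0 ρ (z : X)) ∈ Z1 𝓛 ρ :=
        (Z1 𝓛 ρ).sub_mem ((Z1 𝓛 ρ).sub_mem (c x).2 (c y).2) (d0_mem_Z1 hsm _)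
      refine ur_eq_zero h hmem.1 hmem.2 ?_ ?_
      · intro i hi
        simp only [Pi.sub_apply, d0_apply, hcI x i hi, hcI y i hi, z.2 i hi, sub_self]
      · simp only [Pi.sub_apply, d0_apply]
        rw [← hz, hf, sub_self]
    have h1 : H1.mk 𝓛 ρ (c x - c y) = 0 := by
      rw [H1.mk_eq_zero_iff]
      refine ⟨((Z1 𝓛 ρ).sub_mem (c x).2 (c y).2).1, (z : X), ?_⟩
      exact sub_eq_zero.1 he
    rw [map_sub, hc, hc, sub_eq_zero] at h1
    exact Subtype.ext h1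
  let Φ : ↥Hur × ↥f.range → ↥(urXI I ρ) := fun w =>
    ⟨(c w.1 : D → X) φ + (w.2 : X), (urXI I ρ).add_mem (hval w.1) (by
      obtain ⟨z, hz⟩ := w.2.2
      rw [← hz]; exact hfm z)⟩
  have hΦ : Function.Injective Φ := by
    rintro ⟨x, r⟩ ⟨y, r'⟩ hxy
    have h1 : (c x : D → X) φ + (r : X) = (c y : D → X) φ + (r' : X) := congrArg Subtype.val hxy
    have h2 : (c x : D → X) φ - (c y : D → X) φ = (r' : X) - (r : X) := by
      rw [sub_eq_sub_iff_add_eq_add, h1, add_comm]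
    have h3 : x = y := key x y (by rw [h2]; exact f.range.sub_mem r'.2 r.2)
    subst h3
    have h4 : (r : X) = r' := add_left_cancel h1
    rw [Subtype.ext h4]
  have hfin : Finite (↥Hur × ↥f.range) := Finite.of_injective Φ hΦ
  have hfin' : Finite ↥Hur := Finite.prod_left ↥f.range
  refine ⟨hfin', ?_⟩
  have h1 : Nat.card ↥Hur * Nat.card ↥f.range ≤ Nat.card ↥(urXI I ρ) := by
    rw [← Nat.card_prod]
    exact Nat.card_le_card_of_injective Φ hΦ
  have h2 : Nat.card ↥(urXI I ρ) = Nat.card ↥f.range * Nat.card ↥f.ker := by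
    rw [AddSubgroup.card_eq_card_quotient_mul_card_addSubgroup f.ker,
      Nat.card_congr (QuotientAddGroup.quotientKerEquivRange f).toEquiv]
  have h3 : Nat.card ↥f.ker ≤ Nat.card ↥(H0 ρ) := by
    let Ψ : ↥f.ker → ↥(H0 ρ) := fun z => ⟨((z : ↥(urXI I ρ)) : X), ur_mem_H0 h hsm z.1.2 (by
      have := z.2
      rw [AddMonoidHom.mem_ker, hf, sub_eq_zero] at this
      exact this)⟩
    refine Nat.card_le_card_of_injective Ψ ?_
    intro z z' hzz
    have h5 : ((z : ↥(urXI I ρ)) : X) = ((z' : ↥(urXI I ρ)) : X) := congrArg (fun w : ↥(H0 ρ) => (w : X)) hzz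
    exact Subtype.ext (Subtype.ext h5)
  have hpos : 0 < Nat.card ↥f.range := Nat.card_pos
  have h4 : Nat.card ↥Hur * Nat.card ↥f.range ≤ Nat.card ↥(H0 ρ) * Nat.card ↥f.range := by
    calc Nat.card ↥Hur * Nat.card ↥f.range ≤ Nat.card ↥f.range * Nat.card ↥f.ker := h2 ▸ h1
      _ ≤ Nat.card ↥f.range * Nat.card ↥(H0 ρ) := Nat.mul_le_mul_left _ h3
      _ = _ := mul_comm _ _
  exact Nat.le_of_mul_le_mul_right h4 hpos

end Abs

/-- [S56/L-UR] -/
theorem card_H1ur_le (q : Nat.Primes) {X : Type*} [AddCommGroup X] [Finite X]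
    (ρ : ↥(Dq q) →* AddMonoid.End X) (hsm : Smooth (lvlD q) ρ) :
    Finite ↥(D.H1ur q ρ) ∧ Nat.card ↥(D.H1ur q ρ) ≤ Nat.card ↥(H0 ρ) := by
  obtain ⟨φ, -, h⟩ := D.exists_proCyc q
  exact ur_card h hsm (D.H1ur q ρ) (fun x hx => hx)

end Fermat.Agent.S56.Loc
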