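import Fermat.Agent.S56.Tan.Dict
import Fermat.Agent.S56.Tan.DictOrd
import Fermat.Agent.S56.Tan.Res
import Fermat.Agent.S56.Loc.Ur
import Fermat.Agent.S56.Loc.Unip

/-!
# S56 / Loc / Lq : the local condition at `q ≠ p`, `ρbar` ramified at `q`        (helper25)

`L = H¹_ur(D_q, ad⁰)`: `card_H1ur_le` (size) and `unip_vanish` (a lift which is unipotent on inertia is, up to a coboundary, trivial on inertia).
-/

set_option autoImplicit false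

open IsLocalRing Fermat.Agent.S53 Fermat.Agent.S55 ExtCitation

noncomputable section

namespace Fermat.Agent.S56.Loc

variable {𝒪 : Type} [CommRing 𝒪] [IsDomain 𝒪] [IsDiscreteValuationRing 𝒪]
  [IsAdicComplete (maximalIdeal 𝒪) 𝒪] [Finite (ResidueField 𝒪)]

omit [IsDomain 𝒪] [IsDiscreteValuationRing 𝒪] [IsAdicComplete (maximalIdeal 𝒪) 𝒪]
  [Finite (ResidueField 𝒪)] in
/-- `k` has characteristic `p` -/
theorem charP_res [IsLocalRing 𝒪] (p : ℕ) [Fact p.Prime] (hp𝒪 : (p : 𝒪) ∈ maximalIdeal 𝒪) :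
    CharP (ResidueField 𝒪) p :=
  (CharP.charP_iff_prime_eq_zero (Fact.out : p.Prime)).2 (dictOrd_p_zero p hp𝒪)

/-- a level constant cocycle vanishes on a level -/
theorem z1_level {G : Type*} [Group G] {𝓛 : Lvl G} {A : Type*} [AddCommGroup A]
    {ρ : G →* AddMonoid.End A} (c : ↥(Z1 𝓛 ρ)) : ∃ U ∈ 𝓛.sets, ∀ σ ∈ U, (c : G → A) σ = 0 := by
  obtain ⟨U, hU, h⟩ := c.2.1
  have h1 : (c : G → A) 1 = 0 := by
    have := c.2.2 1 1
    rw [mul_one, map_one] at this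
    exact (add_eq_right.1 this.symm)
  exact ⟨U, hU, fun σ hσ => by rw [← one_mul σ, h 1 σ hσ, h1]⟩

/-- **[LOC-q]** -/
theorem exists_Lq (p : ℕ) [Fact p.Prime] (hp2 : p ≠ 2) (hp𝒪 : (p : 𝒪) ∈ maximalIdeal 𝒪)
    {ρbar : ResidualGaloisRep (ResidueField 𝒪)} (r0 : Gal →* GL (Fin 2) (ResidueField 𝒪))
    (h0 : HasMatrixRes ρbar (fun σ => (r0 σ : M2 (ResidueField 𝒪))))
    (q : Nat.Primes) (hq : (q : ℕ) ≠ p) (hram : ¬ ρbar.IsUnramifiedAt q) :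
    ∃ L : AddSubgroup (H1 (lvlD q) (rv Dq (adRho r0) q)), Finite L ∧
      Nat.card L ≤ Nat.card (H0 (rv Dq (adRho r0) q)) ∧
      ∀ (c : ↥(Z1 lvlQ (adRho r0))) (ρ : GaloisRepAdic (Keps 𝒪)),
        HasMatrix ρ (liftMat r0 (c : Gal → Ad0 (ResidueField 𝒪))) → ρ.DetIsCyclotomic p →
        ρ.IsUnipotentOnInertiaAt q → loc1 (adRho r0) q (H1.mk lvlQ (adRho r0) c) ∈ L := by
  have : CharP (ResidueField 𝒪) p := charP_res p hp𝒪
  have h2 : (2 : ResidueField 𝒪) ≠ 0 := dictOrd_two_ne_zero p hp2 hp𝒪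
  have hfm := finMod_adRho p h0
  have : Finite (Ad0 (ResidueField 𝒪)) := hfm.fin
  have hsmD : Smooth (lvlD q) (rv Dq (adRho r0) q) := Smooth.res _ hfm.smooth (Dq q).subtype
  obtain ⟨hfin, hcard⟩ := card_H1ur_le q (rv Dq (adRho r0) q) hsmD
  refine ⟨D.H1ur q (rv Dq (adRho r0) q), hfin, hcard, fun c ρ hρ _ hun => ?_⟩
  -- `r0` is ramified on `Iq q`
  have hram' : ∃ σ ∈ Iq q, r0 σ ≠ 1 := by
    by_contra hcon
    push Not at hcon
    apply hram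
    intro A hA σ hσ
    obtain ⟨h, hh⟩ := D.exists_conj_inertia q A hA
    obtain ⟨i₀, hi₀, rfl⟩ := hh σ hσ
    obtain ⟨b, hb⟩ := h0
    have h1 : r0 (h * i₀ * h⁻¹) = 1 := by
      rw [map_mul, map_mul, hcon i₀ hi₀, mul_one, ← map_mul, mul_inv_cancel, map_one]
    apply (LinearMap.toMatrix b b).injective
    rw [hb]
    show ((r0 (h * i₀ * h⁻¹) : GL (Fin 2) (ResidueField 𝒪)) : M2 (ResidueField 𝒪)) = _
    rw [h1, LinearMap.toMatrix_one, Units.val_one]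
  obtain ⟨Y, hY, hYI⟩ := unip_vanish p q hq h2 r0 (exists_level h0)
    (fun σ => (((c : Gal → Ad0 (ResidueField 𝒪)) σ : Ad0 (ResidueField 𝒪)) : M2 (ResidueField 𝒪)))
    (fun σ τ => by
      have := congrArg (fun x : Ad0 (ResidueField 𝒪) => (x : M2 (ResidueField 𝒪))) (c.2.2 σ τ)
      exact this)
    (by
      obtain ⟨U, hU, h⟩ := z1_level c
      exact ⟨U, hU, fun σ hσ => by rw [h σ hσ]; rfl⟩)
    (fun σ => mem_ad0.1 ((c : Gal → Ad0 (ResidueField 𝒪)) σ).2)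
    (fun σ hσ => dict_unip hρ hun (primeLocalPlace q) (D.liesOverPrime_primeLocalPlace q) σ hσ)
    hram'
  -- the modified cocycle
  let Y' : Ad0 (ResidueField 𝒪) := ⟨Y, mem_ad0.2 hY⟩
  let b : ↥(Z1 (lvlD q) (rv Dq (adRho r0) q)) := ⟨d0 _ Y', d0_mem_Z1 hsmD Y'⟩
  have hb0 : H1.mk (lvlD q) (rv Dq (adRho r0) q) b = 0 := by
    rw [H1.mk_eq_zero_iff]
    exact ⟨LC1_d0 hsmD Y', Y', rfl⟩
  rw [D.loc1_mk_aux]
  refine ⟨D.resZ1 (adRho r0) q c + b, by rw [map_add, hb0, add_zero], fun i hi => ?_⟩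
  apply Subtype.ext
  exact hYI (i : GQ) (D.mem_IqD.1 hi)

end Fermat.Agent.S56.Loc
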