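import Fermat.Agent.S55.Coh.Arith

/-!
# S56 / Loc / Cnt : formal counting lemmas        (block owner helper25)

## key S56/L-CNT : `card_image_le`
`G`, `𝓛`, `M` finite with action `ρ`; `W ≤ Bo ≤ M` with `ρ g b - b ∈ W` for `b ∈ Bo`.  `ZW = {c ∈ Z¹ | ∀ g, c g ∈ W}`, `LW = image of ZW in H¹`.
`ZW → LW` is onto with kernel `Kr = ZW ∩ B¹ ⊇ d0 (Bo)` (`d0 b` is `LC1` by smoothness: `ρ (g u) b = ρ g b` for `u` in the level fixing `b`), `# d0 (Bo) = # Bo / # (Bo ∩ H0) ≥ # Bo / # H0`.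
So `# LW * # Bo ≤ # LW * # Kr * # H0 = # ZW * # H0`.
-/

set_option autoImplicit false

noncomputable section

namespace Fermat.Agent.S56.Loc

open Fermat.Agent.S55

variable {G : Type*} [Group G] (𝓛 : Lvl G) {M : Type*} [AddCommGroup M] (ρ : G →* AddMonoid.End M)

/-- cocycles with values in `W` -/
def ZW (W : AddSubgroup M) : AddSubgroup ↥(Z1 𝓛 ρ) where
  carrier := {c | ∀ g, (c : G → M) g ∈ W}
  add_mem' := fun ha hb g => W.add_mem (ha g) (hb g)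
  zero_mem' := fun _ => W.zero_mem
  neg_mem' := fun ha g => W.neg_mem (ha g)

/-- the classes of the cocycles with values in `W` -/
def LW (W : AddSubgroup M) : AddSubgroup (H1 𝓛 ρ) := (ZW 𝓛 ρ W).map (H1.mk 𝓛 ρ)

/-- [S56/L-CNT] -/
theorem card_image_le [Finite M] (hsm : Smooth 𝓛 ρ) (W Bo : AddSubgroup M)
    (hB : ∀ g, ∀ b ∈ Bo, ρ g b - b ∈ W) [Finite ↥(ZW 𝓛 ρ W)] :
    Finite ↥(LW 𝓛 ρ W) ∧
      Nat.card ↥(LW 𝓛 ρ W) * Nat.card ↥Bo ≤ Nat.card ↥(ZW 𝓛 ρ W) * Nat.card ↥(H0 ρ) := by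
  let π : ↥(ZW 𝓛 ρ W) →+ ↥(LW 𝓛 ρ W) := (H1.mk 𝓛 ρ).addSubgroupMap (ZW 𝓛 ρ W)
  have hπ : Function.Surjective π := (H1.mk 𝓛 ρ).addSubgroupMap_surjective (ZW 𝓛 ρ W)
  have hfin : Finite ↥(LW 𝓛 ρ W) := Finite.of_surjective π hπ
  refine ⟨hfin, ?_⟩
  have h1 : Nat.card ↥(ZW 𝓛 ρ W) = Nat.card ↥(LW 𝓛 ρ W) * Nat.card ↥π.ker := by
    rw [AddSubgroup.card_eq_card_quotient_mul_card_addSubgroup π.ker,
      Nat.card_congr (QuotientAddGroup.quotientKerEquivOfSurjective π hπ).toEquiv]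
  let δ : ↥Bo →+ (G → M) := (d0 ρ).comp Bo.subtype
  have h2 : Nat.card ↥Bo = Nat.card ↥δ.range * Nat.card ↥δ.ker := by
    rw [AddSubgroup.card_eq_card_quotient_mul_card_addSubgroup δ.ker,
      Nat.card_congr (QuotientAddGroup.quotientKerEquivRange δ).toEquiv]
  have h3 : Nat.card ↥δ.ker ≤ Nat.card ↥(H0 ρ) := by
    let Ψ : ↥δ.ker → ↥(H0 ρ) := fun z => ⟨((z : ↥Bo) : M), fun g => by
      have h := z.2
      rw [AddMonoidHom.mem_ker] at h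
      have h' := congrFun h g
      exact sub_eq_zero.1 h'⟩
    refine Nat.card_le_card_of_injective Ψ ?_
    intro z z' hzz
    have h5 : ((z : ↥Bo) : M) = ((z' : ↥Bo) : M) := congrArg (fun w : ↥(H0 ρ) => (w : M)) hzz
    exact Subtype.ext (Subtype.ext h5)
  have h4 : Nat.card ↥δ.range ≤ Nat.card ↥π.ker := by
    have hy : ∀ y : ↥δ.range, ∃ z : ↥π.ker, (((z : ↥(ZW 𝓛 ρ W)) : ↥(Z1 𝓛 ρ)) : G → M) = y := by
      rintro ⟨_, b, rfl⟩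
      have hz1 : d0 ρ (b : M) ∈ Z1 𝓛 ρ := by
        refine ⟨?_, fun g h => ?_⟩
        · obtain ⟨U, hU, hUb⟩ := hsm (b : M)
          refine ⟨U, hU, fun g u hu => ?_⟩
          simp only [d0_apply, map_mul]
          show ρ g (ρ u (b : M)) - (b : M) = _
          rw [hUb u hu]
        · simp only [d0_apply, map_mul, map_sub]
          show ρ g (ρ h (b : M)) - (b : M) = _
          abel
      have hzw : (⟨d0 ρ (b : M), hz1⟩ : ↥(Z1 𝓛 ρ)) ∈ ZW 𝓛 ρ W := fun g => hB g b b.2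
      refine ⟨⟨⟨⟨d0 ρ (b : M), hz1⟩, hzw⟩, ?_⟩, rfl⟩
      rw [AddMonoidHom.mem_ker]
      apply Subtype.ext
      show H1.mk 𝓛 ρ ⟨d0 ρ (b : M), hz1⟩ = 0
      rw [H1.mk_eq_zero_iff]
      exact ⟨hz1.1, _, rfl⟩
    choose Θ hΘ using hy
    refine Nat.card_le_card_of_injective Θ ?_
    intro y y' hyy
    apply Subtype.ext
    rw [← hΘ y, ← hΘ y', hyy]
  calc Nat.card ↥(LW 𝓛 ρ W) * Nat.card ↥Bo
      = Nat.card ↥(LW 𝓛 ρ W) * (Nat.card ↥δ.range * Nat.card ↥δ.ker) := by rw [h2]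
    _ ≤ Nat.card ↥(LW 𝓛 ρ W) * (Nat.card ↥π.ker * Nat.card ↥(H0 ρ)) :=
        Nat.mul_le_mul_left _ (Nat.mul_le_mul h4 h3)
    _ = Nat.card ↥(ZW 𝓛 ρ W) * Nat.card ↥(H0 ρ) := by rw [h1, mul_assoc]

end Fermat.Agent.S56.Loc
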