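import Fermat.Agent.S56.Loc.KumP

/-!
# S56 / Loc / Coord : `# Z¹(D_p, k(ω)) ≤ (# k)³`        (block owner helper25)

## key S56/L-COORD : `card_Z1_rhoK`
`k` is a finite dimensional `ZMod p`-vector space (`ZMod.algebra k p`), `b = Module.finBasis (ZMod p) k`, `d = finrank`, `# k = p ^ d` (`Module.card_eq_pow_finrank` / `Module.natCard_eq_pow_finrank`).
`c ↦ (i ↦ (g ↦ b.repr (c g) i))` is an injective map `Z¹(D_p, rhoK p k) → (Fin d → Z¹(D_p, rhoT p))` (`b.repr` is `ZMod p`-linear, `castHom a * x = a • x`), so `# Z¹ ≤ (p ^ 3) ^ d = (# k) ^ 3`.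
-/

set_option autoImplicit false

noncomputable section

namespace Fermat.Agent.S56.Loc

open Fermat.Agent.S55 ExtCitation

/-- `k(ω)` : `k` with the action of `GQ` through the mod `p` cyclotomic character -/
def rhoK (p : ℕ) [Fact p.Prime] (k : Type*) [Field k] [CharP k p] : GQ →* AddMonoid.End k where
  toFun σ := AddMonoidHom.mulLeft (ZMod.castHom (dvd_refl p) k ((cycloChar p σ : (ZMod p)ˣ) : ZMod p))
  map_one' := by
    ext a
    show ZMod.castHom (dvd_refl p) k ((cycloChar p 1 : (ZMod p)ˣ) : ZMod p) * a = a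
    rw [map_one, Units.val_one, map_one, one_mul]
  map_mul' σ τ := by
    ext a
    show ZMod.castHom (dvd_refl p) k ((cycloChar p (σ * τ) : (ZMod p)ˣ) : ZMod p) * a =
      ZMod.castHom (dvd_refl p) k ((cycloChar p σ : (ZMod p)ˣ) : ZMod p) *
        (ZMod.castHom (dvd_refl p) k ((cycloChar p τ : (ZMod p)ˣ) : ZMod p) * a)
    rw [map_mul, Units.val_mul, map_mul, mul_assoc]

theorem rhoK_apply (p : ℕ) [Fact p.Prime] (k : Type*) [Field k] [CharP k p] (σ : GQ) (a : k) :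
    rhoK p k σ a = ZMod.castHom (dvd_refl p) k ((cycloChar p σ : (ZMod p)ˣ) : ZMod p) * a := rfl

/-- the shape used by `dict_strictOrd` -/
theorem rhoK_apply' (p : ℕ) [Fact p.Prime] (k : Type*) [Field k] [CharP k p] (σ : GQ) (a : k) :
    rhoK p k σ a = ((((cycloChar p σ : (ZMod p)ˣ) : ZMod p).val : ℕ) : k) * a := by
  rw [rhoK_apply, ZMod.castHom_apply, ZMod.natCast_val]

/-- [S56/L-COORD] -/
theorem card_Z1_rhoK (p : ℕ) [Fact p.Prime] (hp2 : p ≠ 2) (k : Type) [Field k] [Finite k]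
    [CharP k p] :
    Finite ↥(Z1 (lvlD (pPrime p)) (rv Dq (rhoK p k) (pPrime p))) ∧
      Nat.card ↥(Z1 (lvlD (pPrime p)) (rv Dq (rhoK p k) (pPrime p))) ≤ Nat.card k ^ 3 := by
  obtain ⟨hfin, hcard⟩ := card_Z1_rhoT p hp2
  let _ : Algebra (ZMod p) k := ZMod.algebra k p
  have : Module.Finite (ZMod p) k := Module.Finite.of_finite
  let b := Module.finBasis (ZMod p) k
  have hsm : ∀ (a : ZMod p) (x : k), ZMod.castHom (dvd_refl p) k a * x = a • x := fun a x => by
    rw [Algebra.smul_def]; rfl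
  have hmem : ∀ (c : ↥(Z1 (lvlD (pPrime p)) (rv Dq (rhoK p k) (pPrime p))))
      (i : Fin (Module.finrank (ZMod p) k)),
      (fun g => b.repr ((c : ↥(Dq (pPrime p)) → k) g) i) ∈
        Z1 (lvlD (pPrime p)) (rv Dq (rhoT p) (pPrime p)) := by
    intro c i
    refine ⟨c.2.1.comp (fun x => b.repr x i), fun g h => ?_⟩
    have h1 := c.2.2 g h
    have h2 : rv Dq (rhoK p k) (pPrime p) g ((c : ↥(Dq (pPrime p)) → k) h) =
        ((cycloChar p (g : GQ) : (ZMod p)ˣ) : ZMod p) • ((c : ↥(Dq (pPrime p)) → k) h) := hsm _ _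
    show b.repr ((c : ↥(Dq (pPrime p)) → k) (g * h)) i = _
    rw [h1, h2, map_add, map_smul, Finsupp.add_apply, Finsupp.smul_apply]
    rfl
  let Φ : ↥(Z1 (lvlD (pPrime p)) (rv Dq (rhoK p k) (pPrime p))) →
      (Fin (Module.finrank (ZMod p) k) → ↥(Z1 (lvlD (pPrime p)) (rv Dq (rhoT p) (pPrime p)))) :=
    fun c i => ⟨_, hmem c i⟩
  have hΦ : Function.Injective Φ := by
    intro c c' hcc
    apply Subtype.ext
    funext g
    apply b.repr.injective
    ext i
    have h1 := congrArg (fun z : ↥(Z1 (lvlD (pPrime p)) (rv Dq (rhoT p) (pPrime p))) =>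
      (z : ↥(Dq (pPrime p)) → ZMod p) g) (congrFun hcc i)
    exact h1
  refine ⟨Finite.of_injective Φ hΦ, ?_⟩
  calc Nat.card ↥(Z1 (lvlD (pPrime p)) (rv Dq (rhoK p k) (pPrime p)))
      ≤ Nat.card (Fin (Module.finrank (ZMod p) k) →
          ↥(Z1 (lvlD (pPrime p)) (rv Dq (rhoT p) (pPrime p)))) := Nat.card_le_card_of_injective Φ hΦ
    _ = Nat.card ↥(Z1 (lvlD (pPrime p)) (rv Dq (rhoT p) (pPrime p))) ^ Module.finrank (ZMod p) k := by
        rw [Nat.card_fun, Nat.card_fin]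
    _ ≤ (p ^ 3) ^ Module.finrank (ZMod p) k := Nat.pow_le_pow_left hcard _
    _ = Nat.card k ^ 3 := by
        rw [Module.natCard_eq_pow_finrank (K := ZMod p) (V := k), Nat.card_zmod, ← pow_mul, ← pow_mul,
          mul_comm]

end Fermat.Agent.S56.Loc
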