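import Fermat.Agent.S56.Loc.Lin

/-!
# S56 / Loc / SOLin : upper triangular `2 × 2` matrices (Mathlib only)        (helper25)
-/

set_option autoImplicit false

namespace Fermat.Agent.S56.Loc

open Matrix

variable {k : Type*} [Field k]

/-- the inverse of an upper triangular matrix -/
theorem upper_inv {R Ri : Matrix (Fin 2) (Fin 2) k} (hR : R * Ri = 1) (h10 : R 1 0 = 0) :
    Ri 1 0 = 0 ∧ R 1 1 * Ri 1 1 = 1 ∧ R 0 0 * Ri 0 0 = 1 := by
  have e10 := congrFun (congrFun hR 1) 0
  have e11 := congrFun (congrFun hR 1) 1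
  have e00 := congrFun (congrFun hR 0) 0
  rw [Matrix.mul_apply, Fin.sum_univ_two] at e10 e11 e00
  rw [h10, zero_mul, zero_add] at e10 e11
  rw [Matrix.one_apply_eq] at e11 e00
  rw [Matrix.one_apply_ne (show (1 : Fin 2) ≠ 0 by decide)] at e10
  have h11 : R 1 1 ≠ 0 := by
    intro h
    rw [h, zero_mul] at e11
    exact zero_ne_one e11
  have hi : Ri 1 0 = 0 := (mul_eq_zero.1 e10).resolve_left h11
  rw [hi, mul_zero, add_zero] at e00
  exact ⟨hi, e11, e00⟩

/-- conjugation of `t e₁₂` by an upper triangular matrix -/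
theorem conj_e12 {R Ri : Matrix (Fin 2) (Fin 2) k} (hR : R * Ri = 1) (h10 : R 1 0 = 0) (t : k) :
    R * !![0, t; 0, 0] * Ri = !![0, R 0 0 * t * Ri 1 1; 0, 0] := by
  obtain ⟨hi, -, -⟩ := upper_inv hR h10
  refine linAux_ext ?_ ?_ ?_ ?_ <;>
    simp [Matrix.mul_apply, Fin.sum_univ_two, h10, hi]

/-- conjugation by an upper triangular matrix is trivial on (upper triangular) / (strictly upper triangular) -/
theorem conj_upper {R Ri : Matrix (Fin 2) (Fin 2) k} (hR : R * Ri = 1) (h10 : R 1 0 = 0)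
    {X : Matrix (Fin 2) (Fin 2) k} (hX : X 1 0 = 0) :
    ∃ t : k, R * X * Ri - X = !![0, t; 0, 0] := by
  obtain ⟨hi, h11, h00⟩ := upper_inv hR h10
  refine ⟨(R * X * Ri - X) 0 1, linAux_ext ?_ ?_ ?_ ?_⟩
  · simp only [Matrix.sub_apply, Matrix.mul_apply, Fin.sum_univ_two, h10, hi, hX]
    simp only [Matrix.of_apply, Matrix.cons_val', Matrix.cons_val_zero, Matrix.cons_val_fin_one]
    linear_combination X 0 0 * h00
  · simp
  · simp [Matrix.mul_apply, Fin.sum_univ_two, h10, hi, hX]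
  · simp only [Matrix.sub_apply, Matrix.mul_apply, Fin.sum_univ_two, h10, hi, hX]
    simp only [Matrix.of_apply, Matrix.cons_val', Matrix.cons_val_one, Matrix.cons_val_fin_one]
    linear_combination X 1 1 * h11

/-- uniqueness of the `ω`-line -/
theorem line_unique {R R' h : Matrix (Fin 2) (Fin 2) k} (hh : R * h = h * R') (h10 : R 1 0 = 0)
    (h10' : R' 1 0 = 0) (h11 : R 1 1 = 1) {ω : k} (h00' : R' 0 0 = ω) (hω : ω ≠ 1) : h 1 0 = 0 := by
  have e := congrFun (congrFun hh 1) 0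
  rw [Matrix.mul_apply, Matrix.mul_apply, Fin.sum_univ_two, Fin.sum_univ_two, h10, h10', h11, h00']
    at e
  have e' : h 1 0 * (1 - ω) = 0 := by linear_combination e
  exact (mul_eq_zero.1 e').resolve_right (sub_ne_zero.2 hω.symm)

end Fermat.Agent.S56.Loc
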