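import Fermat.Agent.S56.Tan.DictOrd
import Fermat.Agent.S56.Tan.Res
import Fermat.Agent.S56.Loc.SOLin
import Fermat.Agent.S56.Loc.Cnt
import Fermat.Agent.S56.Loc.Coord
import Fermat.Agent.S56.Loc.Lq

/-!
# S56 / Loc / SO : the strictly ordinary local condition at `p`        (helper25)

`Tri p r0 g` : `g⁻¹ r0 g = [[ω z, *], [0, z]]` on `D_p`, `z` unramified.  If there is no such `g`, `L = ⊥`.  Otherwise fix `g0`; `W = g0 (k e₁₂) g0⁻¹`, `Bo = g0 (upper triangular) g0⁻¹`,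
`L = LW W` (classes of cocycles with values in `W`).  `# Z¹(D_p, W) ≤ # Z¹(D_p, k(ω)) ≤ (# k)³` (`card_Z1_rhoK`), `# Bo ≥ (# k)²`, `card_image_le`.
The line `g e₁` does not depend on `g` (`line_unique`, `ω ≠ 1` on inertia).
-/

set_option autoImplicit false

open IsLocalRing Fermat.Agent.S53 Fermat.Agent.S55 ExtCitation

noncomputable section

namespace Fermat.Agent.S56.Loc

section Abs

variable {k : Type} [Field k]

/-- `g⁻¹ X g` -/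
def cj (g : GL (Fin 2) k) : M2 k →+ M2 k where
  toFun X := ((g⁻¹ : GL (Fin 2) k) : M2 k) * X * (g : M2 k)
  map_zero' := by simp
  map_add' X Y := by rw [mul_add, add_mul]

theorem cj_apply (g : GL (Fin 2) k) (X : M2 k) :
    cj g X = ((g⁻¹ : GL (Fin 2) k) : M2 k) * X * (g : M2 k) := rfl

theorem cj_injective (g : GL (Fin 2) k) : Function.Injective (cj g) := by
  intro X Y h
  rw [cj_apply, cj_apply] at h
  have h1 := congrArg (fun Z => (g : M2 k) * Z * ((g⁻¹ : GL (Fin 2) k) : M2 k)) h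
  simp only [← mul_assoc, Units.mul_inv, one_mul] at h1
  simpa only [mul_assoc, Units.mul_inv, mul_one] using h1

theorem cj_conj (g r : GL (Fin 2) k) (X : M2 k) :
    cj g ((r : M2 k) * X * ((r⁻¹ : GL (Fin 2) k) : M2 k)) =
      ((g⁻¹ * r * g : GL (Fin 2) k) : M2 k) * cj g X *
        (((g⁻¹ * r * g)⁻¹ : GL (Fin 2) k) : M2 k) := by
  have e : (g⁻¹ * r * g)⁻¹ = g⁻¹ * r⁻¹ * g := by group
  rw [e, cj_apply, cj_apply]
  simp only [Units.val_mul]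
  have h : (g : M2 k) * ((g⁻¹ : GL (Fin 2) k) : M2 k) = 1 := Units.mul_inv g
  calc ((g⁻¹ : GL (Fin 2) k) : M2 k) * ((r : M2 k) * X * ((r⁻¹ : GL (Fin 2) k) : M2 k)) * (g : M2 k)
      = ((g⁻¹ : GL (Fin 2) k) : M2 k) * (r : M2 k) * 1 * X * 1 * ((r⁻¹ : GL (Fin 2) k) : M2 k) *
          (g : M2 k) := by noncomm_ring
    _ = _ := by rw [← h]; noncomm_ring

theorem cj_trace (g : GL (Fin 2) k) (X : M2 k) : (cj g X).trace = X.trace := by
  rw [cj_apply, Matrix.trace_mul_cycle, Units.mul_inv, one_mul]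

/-- `g (k e₁₂) g⁻¹` -/
def WW (g : GL (Fin 2) k) : AddSubgroup (Ad0 k) where
  carrier := {X | ∃ t : k, cj g (X : M2 k) = !![0, t; 0, 0]}
  add_mem' := by
    rintro X Y ⟨t, ht⟩ ⟨s, hs⟩
    refine ⟨t + s, ?_⟩
    rw [AddSubgroup.coe_add, map_add, ht, hs]
    refine linAux_ext ?_ ?_ ?_ ?_ <;> simp
  zero_mem' := ⟨0, by
    rw [AddSubgroup.coe_zero, map_zero]
    refine linAux_ext ?_ ?_ ?_ ?_ <;> simp⟩
  neg_mem' := by
    rintro X ⟨t, ht⟩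
    refine ⟨-t, ?_⟩
    rw [AddSubgroup.coe_neg, map_neg, ht]
    refine linAux_ext ?_ ?_ ?_ ?_ <;> simp

/-- `g (upper triangular) g⁻¹` -/
def BB (g : GL (Fin 2) k) : AddSubgroup (Ad0 k) where
  carrier := {X | cj g (X : M2 k) 1 0 = 0}
  add_mem' := by
    intro X Y (hX : cj g (X : M2 k) 1 0 = 0) (hY : cj g (Y : M2 k) 1 0 = 0)
    show cj g ((X + Y : Ad0 k) : M2 k) 1 0 = 0
    rw [AddSubgroup.coe_add, map_add, Matrix.add_apply, hX, hY, add_zero]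
  zero_mem' := by
    show cj g ((0 : Ad0 k) : M2 k) 1 0 = 0
    rw [AddSubgroup.coe_zero, map_zero, Matrix.zero_apply]
  neg_mem' := by
    intro X (hX : cj g (X : M2 k) 1 0 = 0)
    show cj g ((-X : Ad0 k) : M2 k) 1 0 = 0
    rw [AddSubgroup.coe_neg, map_neg, Matrix.neg_apply, hX, neg_zero]

/-- `# Bo ≥ (# k)²` -/
theorem card_BB_ge [Finite k] (g : GL (Fin 2) k) : Nat.card k ^ 2 ≤ Nat.card ↥(BB g) := by
  have hinv : ∀ Z : M2 k, cj g ((g : M2 k) * Z * ((g⁻¹ : GL (Fin 2) k) : M2 k)) = Z := by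
    intro Z
    rw [cj_apply]
    have h : ((g⁻¹ : GL (Fin 2) k) : M2 k) * (g : M2 k) = 1 := Units.inv_mul g
    calc ((g⁻¹ : GL (Fin 2) k) : M2 k) * ((g : M2 k) * Z * ((g⁻¹ : GL (Fin 2) k) : M2 k)) * (g : M2 k)
        = (((g⁻¹ : GL (Fin 2) k) : M2 k) * (g : M2 k)) * Z *
            (((g⁻¹ : GL (Fin 2) k) : M2 k) * (g : M2 k)) := by noncomm_ring
      _ = Z := by rw [h, one_mul, mul_one]
  let f : k × k → ↥(BB g) := fun x =>
    ⟨⟨(g : M2 k) * !![x.1, x.2; 0, -x.1] * ((g⁻¹ : GL (Fin 2) k) : M2 k), by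
      rw [mem_M0, ← cj_trace g, hinv, Matrix.trace_fin_two]
      simp⟩, by
      show cj g _ 1 0 = 0
      rw [hinv]
      rfl⟩
  have hf : Function.Injective f := by
    intro x y h
    have h1 : cj g (((f x : ↥(BB g)) : Ad0 k) : M2 k) = cj g (((f y : ↥(BB g)) : Ad0 k) : M2 k) := by
      rw [h]
    have h2 : (!![x.1, x.2; 0, -x.1] : M2 k) = !![y.1, y.2; 0, -y.1] := by
      have e1 := hinv !![x.1, x.2; 0, -x.1]
      have e2 := hinv !![y.1, y.2; 0, -y.1]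
      exact e1.symm.trans (h1.trans e2)
    exact Prod.ext (congrFun (congrFun h2 0) 0) (congrFun (congrFun h2 0) 1)
  have := Nat.card_le_card_of_injective f hf
  rwa [Nat.card_prod, ← sq] at this

variable (p : ℕ) [Fact p.Prime]

/-- the mod `p` cyclotomic character with values in `k` -/
def omK (k : Type) [Field k] (σ : GQ) : k := ((((cycloChar p σ : (ZMod p)ˣ) : ZMod p).val : ℕ) : k)

/-- `g⁻¹ r0 g = [[ω z, *], [0, z]]` on `D_p`, `z` unramified -/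
def Tri (r0 : Gal →* GL (Fin 2) k) (g : GL (Fin 2) k) : Prop :=
  ∀ σ ∈ Dq (pPrime p),
    ((g⁻¹ * r0 σ * g : GL (Fin 2) k) : M2 k) 1 0 = 0 ∧
    ((g⁻¹ * r0 σ * g : GL (Fin 2) k) : M2 k) 0 0 =
      omK p k σ * ((g⁻¹ * r0 σ * g : GL (Fin 2) k) : M2 k) 1 1 ∧
    (σ ∈ Iq (pPrime p) → ((g⁻¹ * r0 σ * g : GL (Fin 2) k) : M2 k) 1 1 = 1)

variable {p} {r0 : Gal →* GL (Fin 2) k} {g : GL (Fin 2) k}

theorem cj_adRho (g : GL (Fin 2) k) (σ : Gal) (X : Ad0 k) :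
    cj g ((adRho r0 σ X : Ad0 k) : M2 k) =
      ((g⁻¹ * r0 σ * g : GL (Fin 2) k) : M2 k) * cj g (X : M2 k) *
        (((g⁻¹ * r0 σ * g)⁻¹ : GL (Fin 2) k) : M2 k) := by
  rw [coe_adRho, cj_conj]

/-- `D_p` acts trivially on `Bo / W` -/
theorem Tri.sub_mem (hg : Tri p r0 g) (σ : ↥(Dq (pPrime p))) {b : Ad0 k} (hb : b ∈ BB g) :
    rv Dq (adRho r0) (pPrime p) σ b - b ∈ WW g := by
  obtain ⟨t, ht⟩ := conj_upper (Units.mul_inv (g⁻¹ * r0 σ * g)) (hg σ σ.2).1 hb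
  refine ⟨t, ?_⟩
  rw [AddSubgroup.coe_sub, map_sub]
  rw [← ht]
  congr 1
  exact cj_adRho g (σ : Gal) b

/-- `D_p` acts on `W` through `ω` -/
theorem Tri.act_e12 (hg : Tri p r0 g) {σ : Gal} (hσ : σ ∈ Dq (pPrime p)) {X : Ad0 k} {t : k}
    (hX : cj g (X : M2 k) = !![0, t; 0, 0]) :
    cj g ((adRho r0 σ X : Ad0 k) : M2 k) = !![0, omK p k σ * t; 0, 0] := by
  obtain ⟨h10, h00, -⟩ := hg σ hσ
  obtain ⟨-, h11, -⟩ := upper_inv (Units.mul_inv (g⁻¹ * r0 σ * g)) h10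
  rw [cj_adRho, hX, conj_e12 (Units.mul_inv (g⁻¹ * r0 σ * g)) h10, h00]
  have e : omK p k σ * ((g⁻¹ * r0 σ * g : GL (Fin 2) k) : M2 k) 1 1 * t *
      (((g⁻¹ * r0 σ * g)⁻¹ : GL (Fin 2) k) : M2 k) 1 1 = omK p k σ * t := by
    linear_combination omK p k σ * t * h11
  rw [e]

/-- the coordinate of a cocycle with values in `W` -/
theorem Tri.coord_mem [CharP k p] (hg : Tri p r0 g)
    (c : ↥(ZW (lvlD (pPrime p)) (rv Dq (adRho r0) (pPrime p)) (WW g))) :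
    (fun σ : ↥(Dq (pPrime p)) =>
      cj g ((((c : ↥(Z1 (lvlD (pPrime p)) (rv Dq (adRho r0) (pPrime p)))) :
        ↥(Dq (pPrime p)) → Ad0 k) σ : Ad0 k) : M2 k) 0 1) ∈
      Z1 (lvlD (pPrime p)) (rv Dq (rhoK p k) (pPrime p)) := by
  refine ⟨c.1.2.1.comp (fun X : Ad0 k => cj g (X : M2 k) 0 1), fun σ τ => ?_⟩
  obtain ⟨t, ht⟩ := c.2 τ
  have h1 := c.1.2.2 σ τ
  show cj g ((((c : ↥(Z1 (lvlD (pPrime p)) (rv Dq (adRho r0) (pPrime p)))) :
        ↥(Dq (pPrime p)) → Ad0 k) (σ * τ) : Ad0 k) : M2 k) 0 1 = rhoK p k (σ : GQ) _ + _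
  rw [h1, AddSubgroup.coe_add, map_add, Matrix.add_apply, rhoK_apply']
  congr 1
  have h2 := hg.act_e12 σ.2 ht
  have h3 := congrFun (congrFun h2 0) 1
  have h4 := congrFun (congrFun ht 0) 1
  refine h3.trans ?_
  exact congrArg (fun x => omK p k (σ : GQ) * x) h4.symm

theorem Tri.card_ZW [Finite k] [CharP k p] (hp2 : p ≠ 2) (hg : Tri p r0 g) :
    Finite ↥(ZW (lvlD (pPrime p)) (rv Dq (adRho r0) (pPrime p)) (WW g)) ∧
      Nat.card ↥(ZW (lvlD (pPrime p)) (rv Dq (adRho r0) (pPrime p)) (WW g)) ≤ Nat.card k ^ 3 := by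
  obtain ⟨hfin, hcard⟩ := card_Z1_rhoK p hp2 k
  let f : ↥(ZW (lvlD (pPrime p)) (rv Dq (adRho r0) (pPrime p)) (WW g)) →
      ↥(Z1 (lvlD (pPrime p)) (rv Dq (rhoK p k) (pPrime p))) := fun c => ⟨_, hg.coord_mem c⟩
  have hf : Function.Injective f := by
    intro c c' h
    apply Subtype.ext
    apply Subtype.ext
    funext σ
    apply Subtype.ext
    apply cj_injective g
    obtain ⟨t, ht⟩ := c.2 σ
    obtain ⟨t', ht'⟩ := c'.2 σ
    have h1 := congrFun (congrArg Subtype.val h) σ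
    have h2 : cj g ((((c : ↥(Z1 (lvlD (pPrime p)) (rv Dq (adRho r0) (pPrime p)))) :
        ↥(Dq (pPrime p)) → Ad0 k) σ : Ad0 k) : M2 k) 0 1 =
        cj g ((((c' : ↥(Z1 (lvlD (pPrime p)) (rv Dq (adRho r0) (pPrime p)))) :
        ↥(Dq (pPrime p)) → Ad0 k) σ : Ad0 k) : M2 k) 0 1 := h1
    rw [ht, ht'] at h2
    have h3 : t = t' := h2
    rw [ht, ht', h3]
  exact ⟨Finite.of_injective f hf, (Nat.card_le_card_of_injective f hf).trans hcard⟩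

theorem exists_omK_ne_one [CharP k p] (hp2 : p ≠ 2) : ∃ σ ∈ Iq (pPrime p), omK p k σ ≠ 1 := by
  obtain ⟨σ, hσ, ζ, hζ, hne⟩ := S33.exists_moves (pPrime p) hp2
  refine ⟨σ, hσ, fun h1 => hne ?_⟩
  have h2 : ((cycloChar p σ : (ZMod p)ˣ) : ZMod p) = 1 := by
    apply (ZMod.castHom (dvd_refl p) k).injective
    rw [map_one, ZMod.castHom_apply, ← ZMod.natCast_val]
    exact h1
  have h3 := E.cycloChar_spec p σ (t := ζ) hζ
  have : Fact (1 < p) := ⟨(Fact.out : p.Prime).one_lt⟩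
  rw [h2, ZMod.val_one, pow_one] at h3
  exact h3

theorem cj_change (g0 g : GL (Fin 2) k) (X : M2 k) :
    cj g0 X = ((g0⁻¹ * g : GL (Fin 2) k) : M2 k) * cj g X *
      (((g0⁻¹ * g)⁻¹ : GL (Fin 2) k) : M2 k) := by
  have e : (g0⁻¹ * g)⁻¹ = g⁻¹ * g0 := by group
  rw [e, cj_apply, cj_apply]
  simp only [Units.val_mul]
  have h : (g : M2 k) * ((g⁻¹ : GL (Fin 2) k) : M2 k) = 1 := Units.mul_inv g
  calc ((g0⁻¹ : GL (Fin 2) k) : M2 k) * X * (g0 : M2 k)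
      = ((g0⁻¹ : GL (Fin 2) k) : M2 k) * 1 * X * 1 * (g0 : M2 k) := by noncomm_ring
    _ = _ := by rw [← h]; noncomm_ring

/-- the line does not depend on `g` -/
theorem Tri.line [CharP k p] (hp2 : p ≠ 2) {g0 : GL (Fin 2) k} (hg0 : Tri p r0 g0)
    (hg : Tri p r0 g) {X : M2 k} {t : k} (hX : cj g X = !![0, t; 0, 0]) :
    ∃ t' : k, cj g0 X = !![0, t'; 0, 0] := by
  obtain ⟨σ, hσ, hω⟩ := exists_omK_ne_one (k := k) hp2
  have hσD : σ ∈ Dq (pPrime p) := B.Iq_le_Dq _ hσ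
  obtain ⟨a10, -, a11⟩ := hg0 σ hσD
  obtain ⟨b10, b00, b11⟩ := hg σ hσD
  have hh : ((g0⁻¹ * r0 σ * g0 : GL (Fin 2) k) : M2 k) * ((g0⁻¹ * g : GL (Fin 2) k) : M2 k) =
      ((g0⁻¹ * g : GL (Fin 2) k) : M2 k) * ((g⁻¹ * r0 σ * g : GL (Fin 2) k) : M2 k) := by
    rw [← Units.val_mul, ← Units.val_mul]
    congr 1
    group
  have h10 := line_unique hh a10 b10 (a11 hσ) (by rw [b00, b11 hσ, mul_one]) hω
  exact ⟨_, by rw [cj_change g0 g, hX, conj_e12 (Units.mul_inv (g0⁻¹ * g)) h10]⟩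

/-- the abstract form of `exists_Lp_so` -/
theorem so_abs [Finite k] [CharP k p] (hp2 : p ≠ 2) (r0 : Gal →* GL (Fin 2) k)
    (hsm : Smooth lvlQ (adRho r0)) :
    ∃ L : AddSubgroup (H1 (lvlD (pPrime p)) (rv Dq (adRho r0) (pPrime p))), Finite L ∧
      Nat.card L ≤ Nat.card k * Nat.card (H0 (rv Dq (adRho r0) (pPrime p))) ∧
      ∀ (c : ↥(Z1 lvlQ (adRho r0))) (g : GL (Fin 2) k) (Y : Ad0 k), Tri p r0 g →
        (∀ σ ∈ Dq (pPrime p), ∃ t : k,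
          cj g (((c : Gal → Ad0 k) σ + (adRho r0 σ Y - Y) : Ad0 k) : M2 k) = !![0, t; 0, 0]) →
        loc1 (adRho r0) (pPrime p) (H1.mk lvlQ (adRho r0) c) ∈ L := by
  have hsmD : Smooth (lvlD (pPrime p)) (rv Dq (adRho r0) (pPrime p)) :=
    Smooth.res _ hsm (Dq (pPrime p)).subtype
  have hkpos : 0 < Nat.card k := Nat.card_pos
  have : Finite (Ad0 k) := inferInstance
  by_cases hT : ∃ g0, Tri p r0 g0
  · obtain ⟨g0, hg0⟩ := hT
    obtain ⟨hfinZ, hcardZ⟩ := hg0.card_ZW hp2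
    obtain ⟨hfinL, hcardL⟩ := card_image_le (lvlD (pPrime p)) (rv Dq (adRho r0) (pPrime p)) hsmD
      (WW g0) (BB g0) (fun σ b hb => hg0.sub_mem σ hb)
    refine ⟨LW (lvlD (pPrime p)) (rv Dq (adRho r0) (pPrime p)) (WW g0), hfinL, ?_,
      fun c g Y hg hc => ?_⟩
    · have h1 := card_BB_ge g0
      have h2 : Nat.card ↥(LW (lvlD (pPrime p)) (rv Dq (adRho r0) (pPrime p)) (WW g0)) *
          Nat.card k ^ 2 ≤ (Nat.card k * Nat.card (H0 (rv Dq (adRho r0) (pPrime p)))) *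
            Nat.card k ^ 2 := by
        calc _ ≤ Nat.card ↥(LW (lvlD (pPrime p)) (rv Dq (adRho r0) (pPrime p)) (WW g0)) *
              Nat.card ↥(BB g0) := Nat.mul_le_mul_left _ h1
          _ ≤ _ := hcardL
          _ ≤ Nat.card k ^ 3 * Nat.card (H0 (rv Dq (adRho r0) (pPrime p))) :=
              Nat.mul_le_mul_right _ hcardZ
          _ = _ := by ring
      exact Nat.le_of_mul_le_mul_right h2 (pow_pos hkpos 2)
    · let b : ↥(Z1 (lvlD (pPrime p)) (rv Dq (adRho r0) (pPrime p))) := ⟨d0 _ Y, d0_mem_Z1 hsmD Y⟩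
      have hb0 : H1.mk (lvlD (pPrime p)) (rv Dq (adRho r0) (pPrime p)) b = 0 := by
        rw [H1.mk_eq_zero_iff]
        exact ⟨LC1_d0 hsmD Y, Y, rfl⟩
      rw [D.loc1_mk_aux]
      refine ⟨D.resZ1 (adRho r0) (pPrime p) c + b, fun σ => ?_, by rw [map_add, hb0, add_zero]⟩
      obtain ⟨t, ht⟩ := hc σ σ.2
      exact hg0.line hp2 hg ht
  · refine ⟨⊥, inferInstance, ?_, fun c g Y hg _ => absurd ⟨g, hg⟩ hT⟩
    rw [AddSubgroup.card_bot]
    exact Nat.mul_pos hkpos Nat.card_pos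

end Abs

variable {𝒪 : Type} [CommRing 𝒪] [IsDomain 𝒪] [IsDiscreteValuationRing 𝒪]
  [IsAdicComplete (maximalIdeal 𝒪) 𝒪] [Finite (ResidueField 𝒪)]

/-- **[SO]** -/
theorem exists_Lp_so (p : ℕ) [Fact p.Prime] (hp2 : p ≠ 2) (hp𝒪 : (p : 𝒪) ∈ maximalIdeal 𝒪)
    {ρbar : ResidualGaloisRep (ResidueField 𝒪)} (r0 : Gal →* GL (Fin 2) (ResidueField 𝒪))
    (h0 : HasMatrixRes ρbar (fun σ => (r0 σ : M2 (ResidueField 𝒪)))) :
    ∃ L : AddSubgroup (H1 (lvlD (pPrime p)) (rv Dq (adRho r0) (pPrime p))), Finite L ∧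
      Nat.card L ≤ Nat.card (ResidueField 𝒪) * Nat.card (H0 (rv Dq (adRho r0) (pPrime p))) ∧
      ∀ (c : ↥(Z1 lvlQ (adRho r0))) (ρ : GaloisRepAdic (Keps 𝒪)),
        HasMatrix ρ (liftMat r0 (c : Gal → Ad0 (ResidueField 𝒪))) → ρ.DetIsCyclotomic p →
        ρ.IsStrictOrdinaryAt p → loc1 (adRho r0) (pPrime p) (H1.mk lvlQ (adRho r0) c) ∈ L := by
  have : CharP (ResidueField 𝒪) p := charP_res p hp𝒪
  obtain ⟨L, hfin, hcard, hL⟩ := so_abs (p := p) hp2 r0 (finMod_adRho p h0).smooth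
  refine ⟨L, hfin, hcard, fun c ρ hρ _ hord => ?_⟩
  obtain ⟨g, Y, h⟩ := dict_strictOrd p hp2 hp𝒪 hρ hord (primeLocalPlace (pPrime p))
    (D.liesOverPrime_primeLocalPlace (pPrime p))
  exact hL c g Y (fun σ hσ => ⟨(h σ hσ).1, (h σ hσ).2.1, (h σ hσ).2.2.1⟩)
    (fun σ hσ => (h σ hσ).2.2.2)

end Fermat.Agent.S56.Loc
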