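import Fermat.Agent.S55.D.Ar.Unr
import Fermat.Agent.S55.D.Local
import Fermat.Agent.S33.Val.Cyc
import Fermat.Agent.S56.TW.Tame

/-!
# S56 / Loc / Kum : the first layer of tame inertia at `q ≠ p`        (helper25; the arithmetic input is `TW.tame` of helper6)

`ICh q Ψ` : `Ψ : GQ → X` is additive on `Iq q` and vanishes on `Iq q ∩ U` for some level `U`.
EXPORT `exists_tame` : there is `τ ∈ Iq q` such that every `ICh` with values in a `p`-torsion group which kills `τ` kills `Iq q`.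
-/

set_option autoImplicit false

noncomputable section

namespace Fermat.Agent.S56.Loc

open Fermat.Agent.S55 Fermat.Agent.S05 ExtCitation

/-- additive characters of the inertia group, trivial on a level -/
structure ICh (q : Nat.Primes) {X : Type*} [AddCommGroup X] (Ψ : GQ → X) : Prop where
  add : ∀ σ ∈ Iq q, ∀ τ ∈ Iq q, Ψ (σ * τ) = Ψ σ + Ψ τ
  sm : ∃ U ∈ lvlQ.sets, ∀ σ ∈ Iq q, σ ∈ U → Ψ σ = 0

/-- [S56/L-KUM2] (= `TW.tame`, helper6) -/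
theorem ich_eq_zero (p : ℕ) [Fact p.Prime] (q : Nat.Primes) (hq : (q : ℕ) ≠ p) {ϖ : Qb}
    (hϖ : ϖ ^ p = ((q : ℕ) : Qb)) {X : Type*} [AddCommGroup X] (hX : ∀ x : X, p • x = 0)
    {Ψ : GQ → X} (hΨ : ICh q Ψ) {σ : GQ} (hσ : σ ∈ Iq q) (hσϖ : σ ϖ = ϖ) : Ψ σ = 0 := by
  obtain ⟨_, ⟨F, hF, rfl⟩, h⟩ := hΨ.sm
  have := hF
  exact TW.tame p q hq hX Ψ hΨ.add F h hϖ hσ hσϖ

theorem ICh.map_one {q : Nat.Primes} {X : Type*} [AddCommGroup X] {Ψ : GQ → X} (h : ICh q Ψ) :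
    Ψ 1 = 0 := by
  have := h.add 1 (Iq q).one_mem 1 (Iq q).one_mem
  rw [mul_one] at this
  exact (add_eq_right.1 this.symm)

theorem ICh.map_pow {q : Nat.Primes} {X : Type*} [AddCommGroup X] {Ψ : GQ → X} (h : ICh q Ψ)
    {τ : GQ} (hτ : τ ∈ Iq q) (n : ℕ) : Ψ (τ ^ n) = n • Ψ τ := by
  induction n with
  | zero => rw [pow_zero, h.map_one, zero_smul]
  | succ n ih => rw [pow_succ, h.add _ ((Iq q).pow_mem hτ n) _ hτ, ih, succ_nsmul]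

/-- [S56/L-KUM2] `w ϖ = 1 / p ∉ ℤ` -/
theorem exists_moves_root (p : ℕ) [Fact p.Prime] (q : Nat.Primes) {ϖ : Qb}
    (hϖ : ϖ ^ p = ((q : ℕ) : Qb)) : ∃ τ ∈ Iq q, τ ϖ ≠ ϖ := by
  by_contra hcon
  push Not at hcon
  have hp : p.Prime := Fact.out
  have hϖ0 : ϖ ≠ 0 := by
    rintro rfl
    rw [zero_pow hp.ne_zero] at hϖ
    exact B.q_ne_zero q hϖ.symm
  obtain ⟨k, hk⟩ := S33.w_int_of_fixed q hcon hϖ0
  have h1 := RVal.w_pow (v := B.wq q) hϖ0 p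
  rw [hϖ, B.wq_q, hk] at h1
  have h2 : (1 : ℤ) = (p : ℤ) * k := by exact_mod_cast h1
  have h3 : (p : ℤ) ∣ 1 := ⟨k, h2⟩
  have h4 : p ∣ 1 := by exact_mod_cast h3
  exact hp.one_lt.ne' (Nat.dvd_one.1 h4)

/-- the action of `τ ^ n` on `ϖ` -/
theorem kumAux_pow (p : ℕ) [Fact p.Prime] (q : Nat.Primes) (hq : (q : ℕ) ≠ p) {ϖ z : Qb}
    (hz : z ^ p = 1) {τ : GQ} (hτ : τ ∈ Iq q) (hτϖ : τ ϖ = z * ϖ) (n : ℕ) :
    (τ ^ n) ϖ = z ^ n * ϖ := by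
  induction n with
  | zero => simp
  | succ n ih =>
    rw [pow_succ', AlgEquiv.mul_apply, ih, map_mul, map_pow, TW.root_fixed p q hq hτ hz, hτϖ]
    ring

/-- [S56/L-KUM2] **EXPORT** -/
theorem exists_tame (p : ℕ) [Fact p.Prime] (q : Nat.Primes) (hq : (q : ℕ) ≠ p) :
    ∃ τ ∈ Iq q,
      (∀ {X : Type} [AddCommGroup X], (∀ x : X, p • x = 0) → ∀ Ψ : GQ → X, ICh q Ψ → Ψ τ = 0 →
        ∀ σ ∈ Iq q, Ψ σ = 0) := by
  have hp : p.Prime := Fact.out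
  obtain ⟨ϖ, hϖ⟩ := IsAlgClosed.exists_pow_nat_eq (((q : ℕ) : Qb)) hp.pos
  have hϖ0 : ϖ ≠ 0 := by
    rintro rfl
    rw [zero_pow hp.ne_zero] at hϖ
    exact B.q_ne_zero q hϖ.symm
  obtain ⟨τ, hτ, hτϖ⟩ := exists_moves_root p q hϖ
  refine ⟨τ, hτ, fun {X} _ hX Ψ hΨ h0 σ hσ => ?_⟩
  have hz : ∀ g : GQ, (g ϖ / ϖ) ^ p = 1 := by
    intro g
    rw [div_pow, ← map_pow, hϖ, map_natCast, div_self (B.q_ne_zero q)]
  have hne : τ ϖ / ϖ ≠ 1 := by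
    intro h
    exact hτϖ ((div_eq_one_iff_eq hϖ0).1 h)
  have hprim : IsPrimitiveRoot (τ ϖ / ϖ) p := by
    have := IsPrimitiveRoot.orderOf (τ ϖ / ϖ)
    rwa [orderOf_eq_prime (hz τ) hne] at this
  obtain ⟨n, -, hn⟩ := hprim.eq_pow_of_pow_eq_one (hz σ)
  have h1 : (τ ^ n) ϖ = σ ϖ := by
    rw [kumAux_pow p q hq (hz τ) hτ (by field_simp) n, hn]
    field_simp
  have h2 : ((τ ^ n)⁻¹ * σ) ϖ = ϖ := by
    rw [AlgEquiv.mul_apply, ← h1, ← AlgEquiv.mul_apply, inv_mul_cancel, AlgEquiv.one_apply]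
  have hm : (τ ^ n)⁻¹ * σ ∈ Iq q := (Iq q).mul_mem ((Iq q).inv_mem ((Iq q).pow_mem hτ n)) hσ
  have h3 := ich_eq_zero p q hq hϖ hX hΨ hm h2
  have h4 : σ = τ ^ n * ((τ ^ n)⁻¹ * σ) := by group
  rw [h4, hΨ.add _ ((Iq q).pow_mem hτ n) _ hm, h3, hΨ.map_pow hτ, h0, smul_zero, add_zero]

end Fermat.Agent.S56.Loc
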