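import Fermat.Agent.S55.D.Ar.Unr
import Fermat.Agent.S55.D.Local

/-!
# S56 / Loc / KumP : `# Z¹(D_p, μ_p) ≤ p³`        (block owner helper25)

`v = pPrime p`, `K = Fx (Dq v)` (the decomposition field, "`ℚ_p ∩ ℚ̄`"), `w = B.wq v`, `w p = 1`.

## key S56/L-KUMP1 : `exists_pow_decomp`   (arithmetic; S55/B only)
Every `z ∈ K`, `z ≠ 0`, is `z = p ^ j * (1 + p) ^ b * y ^ p` with `j b : ℤ`, `y ∈ K`, `y ≠ 0`.
1. `w z = n ∈ ℤ` (`B.w_int`), `z₁ = z / p ^ n` is a unit of `K`.  `z₁ = z₁ ^ p * (z₁ ^ (p - 1))⁻¹`, so it is enough to treat `u = z₁ ^ (p - 1)`; `z₁ ≡ a` (`a : ℕ`, `B.exists_nat_congr`), `p ∤ a`,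
   `a ^ (p - 1) ≡ 1 mod p` (Fermat), so `w (u - 1) > 0`, hence `≥ 1` (`B.w_int`).
2. `t = (u - 1) / p ∈ K` integral, `t ≡ b : ℕ`; `u' = u / (1 + p) ^ b` has `w (u' - 1) ≥ 2` (`(1 + p) ^ b = 1 + b p + p² (..)`).
3. `t' = (u' - 1) / p²` integral; `u'' = u' / (1 + p t') ^ p` has `w (u'' - 1) ≥ 3 > 2 = 2 w p` (`(1 + x) ^ p = 1 + p x + p x² (..) + x ^ 3 (..)`, `p` odd, `x = p t'`), so `u''` is a `p`-th power in `K` (`B.exists_root (B.pres_Dq v)`).
## key S56/L-KUMP2 : `card_Z1_rhoT`   (cohomology; `D.kumL` with `Sg = Unit`, `π = 1`, or directly `T.H90Aux.key` for `G = ↥(Dq v)`)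
For `c ∈ Z¹(D_v, rhoT p)`: `F g = ζ ^ (c g).val` is a `𝔾_m`-cocycle (`g ζ = ζ ^ (cycloChar p g).val`, `E.cycloChar_spec`), so `ζ ^ (c g).val * g β = β` with `β ≠ 0` (`T.H90Aux.key`), `β ^ p ∈ K`,
`β ^ p = p ^ j (1 + p) ^ b y ^ p`.  Fix `π₀ ^ p = p`, `ε₀ ^ p = 1 + p`.  Then `β = ζ ^ i π₀ ^ j ε₀ ^ b y`, and `c` is determined by `(i, j, b) mod p`:
the map `(i, j, b) ↦ (g ↦ the exponent of g β' / β', β' = ζ ^ i π₀ ^ j ε₀ ^ b)` from `(ZMod p)³` ONTO `Z¹`; easiest: show `Z¹` is contained in the image of a function defined on `Fin p × Fin p × Fin p`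
(`Set.Finite.subset`, `Nat.card_le_card_of_surjective` / `Finite.card_le_of_surjective`-type argument).
-/

set_option autoImplicit false

noncomputable section

namespace Fermat.Agent.S56.Loc

open Fermat.Agent.S55 Fermat.Agent.S05 ExtCitation

section abs

variable {K : Type*} [Field K] {v : RVal K}

theorem EQ_not_GT {x : K} {a : ℝ} (h : v.EQ x a) (h' : v.GT x a) : False := by
  have := h'.lt_w h.1
  rw [h.2] at this
  exact lt_irrefl _ this

theorem GT_pow_sub_pow {x y : K} {r : ℝ} (hx : v.GE x 0) (hy : v.GE y 0) (h : v.GT (x - y) r)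
    (n : ℕ) : v.GT (x ^ n - y ^ n) r := by
  induction n with
  | zero => simpa using RVal.GT_zero r
  | succ n ih =>
    have e : x ^ (n + 1) - y ^ (n + 1) = x ^ n * (x - y) + (x ^ n - y ^ n) * y := by ring
    rw [e]
    have h1 := (hx.pow n).mul_GT h
    have h2 := ih.mul_GE hy
    refine (h1.mono (by simp)).add (h2.mono (by simp))

theorem GE_binom3 {x : K} {r : ℝ} (hr : 0 ≤ r) (hx : v.GE x r) (b : ℕ) :
    v.GE ((1 + x) ^ b - 1 - b * x - (b.choose 2 : ℕ) * x ^ 2) (3 * r) := by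
  have h1x : v.GE (1 + x) 0 := (RVal.EQ_one.GE le_rfl).add (hx.mono hr)
  induction b with
  | zero => simpa using RVal.GE_zero (3 * r)
  | succ b ih =>
    have hc : ((b + 1).choose 2 : ℕ) = b + b.choose 2 := by
      rw [Nat.choose_succ_succ' b 1, Nat.choose_one_right]
    have e : (1 + x) ^ (b + 1) - 1 - ((b + 1 : ℕ) : K) * x - (((b + 1).choose 2 : ℕ) : K) * x ^ 2 =
        ((1 + x) ^ b - 1 - b * x - (b.choose 2 : ℕ) * x ^ 2) * (1 + x) +
          ((b.choose 2 : ℕ) : K) * x ^ 3 := by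
      rw [hc]
      push_cast
      ring
    rw [e]
    have h1 := ih.mul h1x
    have h2 := (RVal.GE_natCast (v := v) (b.choose 2)).mul (hx.pow 3)
    refine (h1.mono (by simp)).add (h2.mono (by push_cast; linarith))

theorem GE_binom2 {x : K} {r : ℝ} (hr : 0 ≤ r) (hx : v.GE x r) (b : ℕ) :
    v.GE ((1 + x) ^ b - 1 - b * x) (2 * r) := by
  have h := GE_binom3 hr hx b
  have h2 := (RVal.GE_natCast (v := v) (b.choose 2)).mul (hx.pow 2)
  have e : (1 + x) ^ b - 1 - b * x = ((1 + x) ^ b - 1 - b * x - (b.choose 2 : ℕ) * x ^ 2) +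
      (b.choose 2 : ℕ) * x ^ 2 := by ring
  rw [e]
  refine (h.mono (by linarith)).add (h2.mono (by push_cast; linarith))

end abs

section

variable (p : ℕ) [Fact p.Prime]

theorem EQ_p : (B.wq (pPrime p)).EQ (p : Qb) 1 :=
  ⟨B.q_ne_zero (pPrime p), B.wq_q (pPrime p)⟩

variable {p}

theorem GE_succ_of_GT {x : Qb} (hx : x ∈ B.Fx (Dq (pPrime p))) {n : ℤ}
    (h : (B.wq (pPrime p)).GT x n) : (B.wq (pPrime p)).GE x (n + 1) := by
  by_cases hx0 : x = 0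
  · exact Or.inl hx0
  obtain ⟨m, hm⟩ := B.w_int (pPrime p) hx hx0
  refine Or.inr ?_
  have := h.lt_w hx0
  rw [hm] at this ⊢
  have h2 : n < m := by exact_mod_cast this
  exact_mod_cast h2

/-- principal units of level `1` -/
theorem exists_decomp_unit (hp2 : p ≠ 2) {u : Qb} (hu : u ∈ B.Fx (Dq (pPrime p)))
    (h1 : (B.wq (pPrime p)).GE (u - 1) 1) :
    ∃ (b : ℕ) (y : Qb), y ∈ B.Fx (Dq (pPrime p)) ∧ y ≠ 0 ∧ u = (1 + (p : Qb)) ^ b * y ^ p := by
  have hp : p.Prime := Fact.out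
  set v := B.wq (pPrime p) with hv
  set Kf := B.Fx (Dq (pPrime p)) with hK
  have hP : v.EQ (p : Qb) 1 := EQ_p p
  have hP0 : (p : Qb) ≠ 0 := hP.1
  have hPK : (p : Qb) ∈ Kf := natCast_mem Kf p
  -- step 2
  have ht : (u - 1) / p ∈ Kf := div_mem (sub_mem hu (one_mem _)) hPK
  have ht0 : v.GE ((u - 1) / p) 0 :=
    (RVal.GE.of_mul_eq_left (div_mul_cancel₀ _ hP0) hP h1).mono (by norm_num)
  obtain ⟨b, hb⟩ := B.exists_nat_congr (pPrime p) ht ht0
  have hb1 : v.GE ((u - 1) / p - b) 1 := by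
    have := GE_succ_of_GT (n := 0) (sub_mem ht (natCast_mem Kf b)) (by simpa using hb)
    simpa using this
  have he : v.EQ ((1 + (p : Qb)) ^ b) 0 := by
    have := (RVal.EQ_one.add_GT (hP.GT (by norm_num) : v.GT (p : Qb) 0)).pow b
    simpa using this
  have heK : (1 + (p : Qb)) ^ b ∈ Kf := pow_mem (add_mem (one_mem _) hPK) b
  have h2 : v.GE (u - (1 + (p : Qb)) ^ b) 2 := by
    have e : u - (1 + (p : Qb)) ^ b = ((u - 1) / p - b) * p - ((1 + (p : Qb)) ^ b - 1 - b * p) := by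
      field_simp
      ring
    rw [e]
    have a1 := hb1.mul (hP.GE le_rfl)
    have a2 := GE_binom2 (v := v) (r := 1) zero_le_one (hP.GE le_rfl) b
    exact (a1.mono (by norm_num)).sub (a2.mono (by norm_num))
  set u' := u / (1 + (p : Qb)) ^ b with hu'
  have hu'K : u' ∈ Kf := div_mem hu heK
  have h3 : v.GE (u' - 1) 2 := by
    refine (RVal.GE.of_mul_eq_left (y := (1 + (p : Qb)) ^ b) (z := u - (1 + (p : Qb)) ^ b) ?_ he
      h2).mono (by norm_num)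
    rw [hu', sub_mul, div_mul_cancel₀ _ he.1, one_mul]
  -- step 3
  set x := (u' - 1) / p with hx
  have hxK : x ∈ Kf := div_mem (sub_mem hu'K (one_mem _)) hPK
  have hx1 : v.GE x 1 :=
    (RVal.GE.of_mul_eq_left (div_mul_cancel₀ _ hP0) hP h3).mono (by norm_num)
  have hy1 : v.EQ ((1 + x) ^ p) 0 := by
    have := (RVal.EQ_one.add_GT (hx1.GT (by norm_num) : v.GT x 0)).pow p
    simpa using this
  have hy1K : 1 + x ∈ Kf := add_mem (one_mem _) hxK
  have h4 : v.GE (u' - (1 + x) ^ p) 3 := by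
    have e : u' - (1 + x) ^ p = - ((1 + x) ^ p - 1 - p * x - (p.choose 2 : ℕ) * x ^ 2) -
        (p.choose 2 : ℕ) * x ^ 2 := by
      have : (p : Qb) * x = u' - 1 := by rw [hx, mul_div_cancel₀ _ hP0]
      linear_combination -this
    rw [e]
    have a1 := GE_binom3 (v := v) (r := 1) zero_le_one hx1 p
    obtain ⟨m, hm⟩ := hp.dvd_choose_self (k := 2) (by norm_num)
      (lt_of_le_of_ne hp.two_le (Ne.symm hp2))
    have a2 : v.GE (((p.choose 2 : ℕ) : Qb) * x ^ 2) 3 := by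
      rw [hm]
      push_cast
      have := ((hP.GE le_rfl).mul (RVal.GE_natCast (v := v) m)).mul (hx1.pow 2)
      exact this.mono (by norm_num)
    exact (a1.neg.mono (by norm_num)).sub a2
  have h5 : v.GT (u' / (1 + x) ^ p - 1) (2 * v.w ((p : ℕ) : Qb)) := by
    rw [hP.2]
    refine RVal.GE.GT (a := 3) ?_ (by norm_num)
    refine (RVal.GE.of_mul_eq_left (y := (1 + x) ^ p) (z := u' - (1 + x) ^ p) ?_ hy1
      h4).mono (by norm_num)
    rw [sub_mul, div_mul_cancel₀ _ hy1.1, one_mul]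
  obtain ⟨c, hcK, hc, -⟩ := B.exists_root (B.pres_Dq (pPrime p)) hp.pos
    (div_mem hu'K (pow_mem hy1K p)) h5
  have hu0 : u' ≠ 0 := by
    intro h0
    rw [h0, zero_sub] at h3
    have := (RVal.EQ_one (v := v)).neg
    exact EQ_not_GT this (h3.GT (by norm_num) : v.GT (-1 : Qb) 0)
  refine ⟨b, (1 + x) * c, mul_mem hy1K hcK, ?_, ?_⟩
  · refine mul_ne_zero (fun h => hy1.1 (by rw [h, zero_pow hp.ne_zero])) ?_
    rintro rfl
    rw [zero_pow hp.ne_zero] at hc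
    exact (div_ne_zero hu0 hy1.1) hc.symm
  · rw [mul_pow, hc, mul_div_cancel₀ _ hy1.1, hu', mul_div_cancel₀ _ he.1]

theorem exists_pow_decomp' (hp2 : p ≠ 2) {z : Qb}
    (hz : z ∈ B.Fx (Dq (pPrime p))) (hz0 : z ≠ 0) :
    ∃ (j b : ℤ) (y : Qb), y ∈ B.Fx (Dq (pPrime p)) ∧ y ≠ 0 ∧
      z = (p : Qb) ^ j * (1 + (p : Qb)) ^ b * y ^ p := by
  have hp : p.Prime := Fact.out
  set v := B.wq (pPrime p) with hv
  set Kf := B.Fx (Dq (pPrime p)) with hK
  have hP : v.EQ (p : Qb) 1 := EQ_p p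
  have hP0 : (p : Qb) ≠ 0 := hP.1
  have hPK : (p : Qb) ∈ Kf := natCast_mem Kf p
  obtain ⟨n, hn⟩ := B.w_int (pPrime p) hz hz0
  set z1 := z / (p : Qb) ^ n with hz1
  have hz1K : z1 ∈ Kf := div_mem hz (zpow_mem hPK n)
  have hz1E : v.EQ z1 0 := by
    refine ⟨div_ne_zero hz0 (zpow_ne_zero _ hP0), ?_⟩
    rw [hz1, RVal.w_div hz0 (zpow_ne_zero _ hP0), RVal.w_zpow hP0, hP.2, hn]
    ring
  obtain ⟨a, ha⟩ := B.exists_nat_congr (pPrime p) hz1K (hz1E.GE le_rfl)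
  have haE : v.EQ (a : Qb) 0 := by
    have := hz1E.sub_GT ha
    rwa [sub_sub_cancel] at this
  have hpa : ¬ p ∣ a := by
    rintro ⟨m, rfl⟩
    have : v.GE (((p * m : ℕ)) : Qb) 1 := by
      push_cast
      exact ((hP.GE le_rfl).mul (RVal.GE_natCast (v := v) m)).mono (by norm_num)
    exact EQ_not_GT haE (this.GT (by norm_num) : v.GT _ 0)
  have hfer : v.GT ((a : Qb) ^ (p - 1) - 1) 0 := by
    have hcop : IsCoprime (a : ℤ) (p : ℤ) := by
      rw [Nat.isCoprime_iff_coprime]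
      exact ((Nat.Prime.coprime_iff_not_dvd hp).2 hpa).symm
    have := Int.ModEq.pow_card_sub_one_eq_one hp hcop
    obtain ⟨m, hm⟩ := (Int.modEq_iff_dvd.1 this.symm)
    have e : (a : Qb) ^ (p - 1) - 1 = (p : Qb) * (m : Qb) := by
      have := congrArg (Int.cast : ℤ → Qb) hm
      push_cast at this
      exact this
    rw [e]
    exact ((hP.GT (by norm_num) : v.GT (p : Qb) 0).mul_GE (RVal.GE_intCast (v := v) m)).mono
      (by norm_num)
  have hu1 : v.GE (z1 ^ (p - 1) - 1) 1 := by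
    have h1 := GT_pow_sub_pow (hz1E.GE le_rfl) (haE.GE le_rfl) ha (p - 1)
    have h2 := h1.add hfer
    rw [sub_add_sub_cancel] at h2
    have := GE_succ_of_GT (n := 0) (sub_mem (pow_mem hz1K (p - 1)) (one_mem _)) (by simpa using h2)
    simpa using this
  obtain ⟨b, y, hyK, hy0, hy⟩ := exists_decomp_unit hp2 (pow_mem hz1K (p - 1)) hu1
  refine ⟨n, -(b : ℤ), z1 * y⁻¹, mul_mem hz1K (inv_mem hyK), mul_ne_zero hz1E.1 (inv_ne_zero hy0), ?_⟩
  have h1p : (1 + (p : Qb)) ≠ 0 := by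
    have := (RVal.EQ_one.add_GT (hP.GT (by norm_num) : v.GT (p : Qb) 0))
    exact this.1
  have e1 : z = (p : Qb) ^ n * z1 := by rw [hz1, mul_div_cancel₀ _ (zpow_ne_zero _ hP0)]
  have e2 : z1 ^ p = z1 * z1 ^ (p - 1) := by
    rw [← pow_succ', Nat.sub_add_cancel hp.one_le]
  rw [mul_pow, e2, hy, zpow_neg, zpow_natCast, inv_pow]
  conv_lhs => rw [e1]
  have := pow_ne_zero b h1p
  have := pow_ne_zero p hy0
  field_simp

end

/-- [S56/L-KUMP1] -/
theorem exists_pow_decomp (p : ℕ) [Fact p.Prime] (hp2 : p ≠ 2) {z : Qb}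
    (hz : z ∈ B.Fx (Dq (pPrime p))) (hz0 : z ≠ 0) :
    ∃ (j b : ℤ) (y : Qb), y ∈ B.Fx (Dq (pPrime p)) ∧ y ≠ 0 ∧
      z = (p : Qb) ^ j * (1 + (p : Qb)) ^ b * y ^ p :=
  exists_pow_decomp' hp2 hz hz0

section K2

variable {p : ℕ} [Fact p.Prime]

/-- `x = ζ ^ n * g x` -/
def KRel (ζ : Qb) (g : GQ) (x : Qb) (n : ℤ) : Prop := x = ζ ^ n * g x

theorem KRel.mul {ζ : Qb} (hζ : ζ ≠ 0) {g : GQ} {x x' : Qb} {n n' : ℤ} (h : KRel ζ g x n)
    (h' : KRel ζ g x' n') : KRel ζ g (x * x') (n + n') := by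
  unfold KRel at *
  rw [map_mul, zpow_add₀ hζ]
  calc x * x' = (ζ ^ n * g x) * (ζ ^ n' * g x') := by rw [← h, ← h']
    _ = _ := by ring

theorem KRel.zpow {ζ : Qb} {g : GQ} {x : Qb} {n : ℤ} (h : KRel ζ g x n) (m : ℤ) :
    KRel ζ g (x ^ m) (m * n) := by
  unfold KRel at *
  rw [map_zpow₀, mul_comm m n, zpow_mul, ← mul_zpow, ← h]

theorem KRel.of_fixed {ζ : Qb} {g : GQ} {x : Qb} (h : g x = x) : KRel ζ g x 0 := by
  unfold KRel
  rw [zpow_zero, one_mul, h]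

theorem KRel.unique {ζ : Qb} (hζ : IsPrimitiveRoot ζ p) {g : GQ} {x : Qb} (hx : x ≠ 0) {n n' : ℤ}
    (h : KRel ζ g x n) (h' : KRel ζ g x n') : (n : ZMod p) = (n' : ZMod p) := by
  unfold KRel at *
  have hζ0 : ζ ≠ 0 := hζ.ne_zero (Fact.out : p.Prime).ne_zero
  have hg : g x ≠ 0 := (map_ne_zero g).2 hx
  have h1 : ζ ^ n = ζ ^ n' := mul_right_cancel₀ hg (h.symm.trans h')
  have h2 : ζ ^ (n - n') = 1 := by rw [zpow_sub₀ hζ0, h1, div_self (zpow_ne_zero _ hζ0)]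
  have h3 := (hζ.zpow_eq_one_iff_dvd _).1 h2
  have h4 := (ZMod.intCast_zmod_eq_zero_iff_dvd (n - n') p).2 h3
  push_cast at h4
  exact sub_eq_zero.1 h4

theorem exists_KRel {ζ : Qb} (hζ : IsPrimitiveRoot ζ p) (g : GQ) {x : Qb} (hx : x ≠ 0)
    (h : g (x ^ p) = x ^ p) : ∃ n : ℤ, KRel ζ g x n := by
  have : NeZero p := ⟨(Fact.out : p.Prime).ne_zero⟩
  have hg : g x ≠ 0 := (map_ne_zero g).2 hx
  have h1 : (x / g x) ^ p = 1 := by
    rw [div_pow, ← map_pow, h, div_self (pow_ne_zero _ hx)]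
  obtain ⟨i, -, hi⟩ := hζ.eq_pow_of_pow_eq_one h1
  refine ⟨i, ?_⟩
  unfold KRel
  rw [zpow_natCast, hi, div_mul_cancel₀ _ hg]

/-- [S56/L-KUMP2] -/
theorem card_Z1_rhoT (p : ℕ) [Fact p.Prime] (hp2 : p ≠ 2) :
    Finite ↥(Z1 (lvlD (pPrime p)) (rv Dq (rhoT p) (pPrime p))) ∧
      Nat.card ↥(Z1 (lvlD (pPrime p)) (rv Dq (rhoT p) (pPrime p))) ≤ p ^ 3 := by
  have hp : p.Prime := Fact.out
  have : NeZero p := ⟨hp.ne_zero⟩
  set v := pPrime p with hv
  obtain ⟨ζ, hζ⟩ := HasEnoughRootsOfUnity.exists_primitiveRoot Qb p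
  have hζp : ζ ^ p = 1 := hζ.pow_eq_one
  have hζ0 : ζ ≠ 0 := hζ.ne_zero hp.ne_zero
  obtain ⟨π0, hπ0⟩ := IsAlgClosed.exists_pow_nat_eq (p : Qb) hp.pos
  obtain ⟨ε0, hε0⟩ := IsAlgClosed.exists_pow_nat_eq (1 + (p : Qb)) hp.pos
  have hP0 : (p : Qb) ≠ 0 := by exact_mod_cast hp.ne_zero
  have hP1 : (1 + (p : Qb)) ≠ 0 := by
    have : ((1 + p : ℕ) : Qb) ≠ 0 := by exact_mod_cast (by omega : 1 + p ≠ 0)
    simpa using this
  have hπ00 : π0 ≠ 0 := by
    rintro rfl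
    rw [zero_pow hp.ne_zero] at hπ0
    exact hP0 hπ0.symm
  have hε00 : ε0 ≠ 0 := by
    rintro rfl
    rw [zero_pow hp.ne_zero] at hε0
    exact hP1 hε0.symm
  choose A1 hA1 using fun g : GQ => exists_KRel hζ g hζ0 (by rw [hζp, map_one])
  choose A2 hA2 using fun g : GQ => exists_KRel hζ g hπ00 (by rw [hπ0, map_natCast])
  choose A3 hA3 using fun g : GQ => exists_KRel hζ g hε00 (by rw [hε0, map_add, map_one, map_natCast])
  have key : ∀ c : ↥(Z1 (lvlD v) (rv Dq (rhoT p) v)), ∃ t : ZMod p × ZMod p × ZMod p,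
      ∀ g : ↥(Dq v), (c : ↥(Dq v) → ZMod p) g =
        t.1 * (A1 g : ZMod p) + t.2.1 * (A2 g : ZMod p) + t.2.2 * (A3 g : ZMod p) := by
    rintro ⟨c, ⟨U, hU, hcU⟩, hc⟩
    obtain ⟨β, hβ0, hβ⟩ := T.H90Aux.key (T.galAct_D v) (Sg := Unit) 1 U hU (fun _ _ => rfl)
      (fun g _ => ζ ^ (c g).val) (fun _ _ => pow_ne_zero _ hζ0)
      (fun g u hu => by funext _; rw [hcU g u hu])
      (fun g k _ => by
        have h1 : c (g * k) = ((cycloChar p (g : GQ) : (ZMod p)ˣ) : ZMod p) * c k + c g := hc g k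
        have h2 : (T.alQ.comp (Dq v).subtype) g (ζ ^ (c k).val) = ((g : GQ) ζ) ^ (c k).val :=
          map_pow (g : GQ) ζ _
        rw [h2, E.cycloChar_spec p (g : GQ) hζp, h1, ZMod.val_add, ZMod.val_mul, ← pow_mul,
          ← pow_add, ← pow_eq_pow_mod _ hζp, pow_add, pow_add, ← pow_eq_pow_mod _ hζp])
    set b0 := β () with hb0
    have hb00 : b0 ≠ 0 := hβ0 ()
    have hrel : ∀ g : ↥(Dq v), KRel ζ (g : GQ) b0 ((c g).val : ℤ) := by
      intro g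
      unfold KRel
      rw [zpow_natCast]
      exact (hβ g ()).symm
    have hbK : b0 ^ p ∈ B.Fx (Dq v) := by
      rw [B.mem_Fx]
      intro g hg
      have h1 := hrel ⟨g, hg⟩
      unfold KRel at h1
      have h2 : b0 ^ p = (ζ ^ (((c ⟨g, hg⟩).val : ℕ) : ℤ)) ^ p * (g b0) ^ p := by
        rw [← mul_pow]
        exact congrArg (· ^ p) h1
      rw [zpow_natCast, ← pow_mul, mul_comm _ p, pow_mul, hζp, one_pow, one_mul] at h2
      rw [map_pow, ← h2]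
    obtain ⟨j, b, y, hyK, hy0, hy⟩ := exists_pow_decomp p hp2 hbK (pow_ne_zero _ hb00)
    have h1 : (b0 / (π0 ^ j * ε0 ^ b * y)) ^ p = 1 := by
      rw [div_pow, hy, mul_pow, mul_pow, ← zpow_natCast (π0 ^ j), ← zpow_mul, mul_comm j,
        zpow_mul, zpow_natCast, hπ0, ← zpow_natCast (ε0 ^ b), ← zpow_mul, mul_comm b, zpow_mul,
        zpow_natCast, hε0]
      exact div_self (mul_ne_zero (mul_ne_zero (zpow_ne_zero _ hP0) (zpow_ne_zero _ hP1))
        (pow_ne_zero _ hy0))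
    obtain ⟨i, -, hi⟩ := hζ.eq_pow_of_pow_eq_one h1
    have hden : π0 ^ j * ε0 ^ b * y ≠ 0 :=
      mul_ne_zero (mul_ne_zero (zpow_ne_zero _ hπ00) (zpow_ne_zero _ hε00)) hy0
    have hb : b0 = ζ ^ (i : ℤ) * π0 ^ j * ε0 ^ b * y := by
      rw [zpow_natCast, hi, mul_assoc, mul_assoc, ← mul_assoc (π0 ^ j), div_mul_cancel₀ _ hden]
    refine ⟨((i : ZMod p), (j : ZMod p), (b : ZMod p)), fun g => ?_⟩
    have h2 : KRel ζ (g : GQ) b0 ((i : ℤ) * A1 g + j * A2 g + b * A3 g + 0) := by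
      rw [hb]
      exact ((((hA1 g).zpow i).mul hζ0 ((hA2 g).zpow j)).mul hζ0 ((hA3 g).zpow b)).mul hζ0
        (KRel.of_fixed (B.mem_Fx.1 hyK g g.2))
    have h3 := KRel.unique hζ hb00 (hrel g) h2
    push_cast at h3
    rw [ZMod.natCast_zmod_val, add_zero] at h3
    exact h3
  choose ψ hψ using key
  have hinj : Function.Injective ψ := by
    intro c c' h
    apply Subtype.ext
    funext g
    rw [hψ c g, hψ c' g, h]
  refine ⟨Finite.of_injective ψ hinj, ?_⟩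
  have := Nat.card_le_card_of_injective ψ hinj
  rw [Nat.card_prod, Nat.card_prod, Nat.card_zmod] at this
  calc _ ≤ p * (p * p) := this
    _ = p ^ 3 := by ring

end K2

end Fermat.Agent.S56.Loc
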